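/-
GATE-C / C3-ABS (helper81), part (ABS0)+(ABS1).

For a Galois extension `Ω/K` (in practice `Ω` an algebraic closure), `G := Ω ≃ₐ[K] Ω`:

* `galLevels K Ω : Prof.LevelSystem (Ω ≃ₐ[K] Ω)` — members = fixing subgroups of the finite
  intermediate fields;
* `unitsRep K Ω := Rep.ofAlgebraAutOnUnits K Ω` (the multiplicative module `Additive Ωˣ`) is discrete;
* the trivial representation is discrete.

The local case: `K := E` a finite extension of `ℚ_[q]` inside `Ω := PadicAlgCl q`.
-/
import Mathlib
import Fermat.Agent.GC.Prof.Basic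

set_option autoImplicit false

open CategoryTheory IntermediateField

noncomputable section

namespace Fermat.Agent.GC.Local.Abs

open Fermat.Agent.GC.Prof

variable (K : Type*) (Ω : Type) [Field K] [Field Ω] [Algebra K Ω] [IsGalois K Ω]

/-- The level system of open subgroups of `Gal(Ω/K)`: fixing subgroups of finite subextensions. -/
def galLevels : LevelSystem (Ω ≃ₐ[K] Ω) where
  sets := {U | ∃ E : IntermediateField K Ω, FiniteDimensional K E ∧ U = E.fixingSubgroup}
  nonempty := ⟨(⊥ : IntermediateField K Ω).fixingSubgroup, ⊥, inferInstance, rfl⟩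
  directed := by
    rintro _ ⟨E, hE, rfl⟩ _ ⟨E', hE', rfl⟩
    refine ⟨(E ⊔ E').fixingSubgroup, ⟨E ⊔ E', IntermediateField.finiteDimensional_sup E E', rfl⟩, ?_⟩
    rw [IntermediateField.fixingSubgroup_sup]
  normal_below := by
    rintro _ ⟨E, hE, rfl⟩
    have hfd : FiniteDimensional K (IntermediateField.normalClosure K E Ω) :=
      normalClosure.is_finiteDimensional K E Ω
    have hn : Normal K (IntermediateField.normalClosure K E Ω) := normalClosure.normal K E Ω
    have hg : IsGalois K (IntermediateField.normalClosure K E Ω) := ⟨⟩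
    refine ⟨(IntermediateField.normalClosure K E Ω).fixingSubgroup, ⟨_, hfd, rfl⟩,
      IntermediateField.fixingSubgroup_antitone (IntermediateField.le_normalClosure E),
      inferInstance, ⟨?_⟩⟩
    rw [← IntermediateField.finrank_eq_fixingSubgroup_index]
    exact Module.finrank_pos.ne'

variable {K Ω}

lemma mem_galLevels_iff {U : Subgroup (Ω ≃ₐ[K] Ω)} :
    U ∈ (galLevels K Ω).sets ↔
      ∃ E : IntermediateField K Ω, FiniteDimensional K E ∧ U = E.fixingSubgroup := Iff.rfl

lemma fixingSubgroup_mem_galLevels (E : IntermediateField K Ω) [FiniteDimensional K E] :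
    E.fixingSubgroup ∈ (galLevels K Ω).sets := ⟨E, inferInstance, rfl⟩

/-- A normal member of `galLevels` is the fixing subgroup of a finite GALOIS subextension. -/
lemma exists_isGalois_of_mem_galLevels {U : Subgroup (Ω ≃ₐ[K] Ω)}
    (hU : U ∈ (galLevels K Ω).sets) [hn : U.Normal] :
    ∃ E : IntermediateField K Ω, FiniteDimensional K E ∧ IsGalois K E ∧ U = E.fixingSubgroup := by
  obtain ⟨E, hE, rfl⟩ := hU
  exact ⟨E, hE, (InfiniteGalois.normal_iff_isGalois E).1 hn, rfl⟩

/-- Below every member there is the fixing subgroup of a finite Galois subextension. -/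
lemma exists_isGalois_le {U : Subgroup (Ω ≃ₐ[K] Ω)} (hU : U ∈ (galLevels K Ω).sets) :
    ∃ E : IntermediateField K Ω, FiniteDimensional K E ∧ IsGalois K E ∧ E.fixingSubgroup ≤ U := by
  obtain ⟨E, hE, rfl⟩ := hU
  have hfd : FiniteDimensional K (IntermediateField.normalClosure K E Ω) :=
    normalClosure.is_finiteDimensional K E Ω
  have hn : Normal K (IntermediateField.normalClosure K E Ω) := normalClosure.normal K E Ω
  exact ⟨_, hfd, ⟨⟩,
    IntermediateField.fixingSubgroup_antitone (IntermediateField.le_normalClosure E)⟩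

/-- level-constancy for `galLevels`, spelled out with fields -/
lemma isLC_galLevels_iff {n : ℕ} {X : Type*} (f : (Fin n → (Ω ≃ₐ[K] Ω)) → X) :
    IsLC (galLevels K Ω) f ↔ ∃ E : IntermediateField K Ω, FiniteDimensional K E ∧
      ∀ g s : Fin n → (Ω ≃ₐ[K] Ω), (∀ i, s i ∈ E.fixingSubgroup) → f (g * s) = f g := by
  constructor
  · rintro ⟨_, ⟨E, hE, rfl⟩, h⟩
    exact ⟨E, hE, h⟩
  · rintro ⟨E, hE, h⟩
    exact ⟨_, ⟨E, hE, rfl⟩, h⟩

variable (K Ω)

/-- The multiplicative module `Ωˣ` (as `Additive Ωˣ`) of `Gal(Ω/K)`. -/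
abbrev unitsRep : Rep ℤ (Ω ≃ₐ[K] Ω) := Rep.ofAlgebraAutOnUnits K Ω

variable {K Ω}

omit [IsGalois K Ω] in
lemma unitsRep_ρ_apply (g : Ω ≃ₐ[K] Ω) (u : Ωˣ) :
    (unitsRep K Ω).ρ g (Additive.ofMul u) = Additive.ofMul (Units.map (g : Ω →* Ω) u) := rfl

/-- An element algebraic over `K` is fixed by the fixing subgroup of `K⟮x⟯`. -/
lemma exists_level_fixing (x : Ω) :
    ∃ U ∈ (galLevels K Ω).sets, ∀ s ∈ U, s x = x := by
  have hx : IsIntegral K x := Algebra.IsIntegral.isIntegral x
  have : FiniteDimensional K K⟮x⟯ := IntermediateField.adjoin.finiteDimensional hx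
  refine ⟨K⟮x⟯.fixingSubgroup, fixingSubgroup_mem_galLevels _, fun s hs => ?_⟩
  exact (IntermediateField.mem_fixingSubgroup_iff _ s).1 hs x
    (IntermediateField.mem_adjoin_simple_self K x)

/-- **(ABS1)** the multiplicative module is discrete. -/
instance isDiscrete_unitsRep : IsDiscrete (galLevels K Ω) (unitsRep K Ω) where
  exists_fix m := by
    obtain ⟨U, hU, h⟩ := exists_level_fixing (K := K) ((Additive.toMul m : Ωˣ) : Ω)
    refine ⟨U, hU, fun s hs => ?_⟩
    have h1 : (unitsRep K Ω).ρ s m =
        Additive.ofMul (Units.map (s : Ω →* Ω) (Additive.toMul m)) := rfl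
    rw [h1]
    apply Additive.toMul.injective
    apply Units.ext
    simpa using h s hs

/-- The trivial representation on any module is discrete (for any level system). -/
instance isDiscrete_trivial {k G : Type} [CommRing k] [Group G] (𝒰 : LevelSystem G)
    (V : Type) [AddCommGroup V] [Module k V] : IsDiscrete 𝒰 (Rep.trivial k G V) where
  exists_fix m := by
    obtain ⟨U, hU⟩ := 𝒰.nonempty
    exact ⟨U, hU, fun s _ => rfl⟩

end Fermat.Agent.GC.Local.Abs
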