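/-
GATE-C / C3-ABS (helper81), part (ABS2): HILBERT 90 IN THE LIMIT.

For a Galois extension `Ω/K` (possibly infinite), `G := Ω ≃ₐ[K] Ω`:
* `isMulCoboundary₁_of_levelConstant` : a level-constant multiplicative 1-cocycle `G → Ωˣ` is a
  coboundary (plain-function form; reduction to a finite Galois level + Mathlib's Hilbert 90);
* `hlc_one_unitsRep_eq_zero`, `subsingleton_hlc_one_unitsRep` :
  `Hlc (galLevels K Ω) (unitsRep K Ω) 1 = 0`.
* `d_zero_apply`, `d_one_apply` : the inhomogeneous differentials in degrees 0, 1, evaluated.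
-/
import Mathlib
import Fermat.Agent.GC.Local.Abs.Levels
import Fermat.Agent.GC.Prof.Concrete

set_option autoImplicit false

open CategoryTheory IntermediateField groupCohomology

noncomputable section

namespace Fermat.Agent.GC.Local.Abs

open Fermat.Agent.GC.Prof

variable {K : Type*} {Ω : Type} [Field K] [Field Ω] [Algebra K Ω] [IsGalois K Ω]

/-- a multiplicative 1-cocycle is trivial at `1` -/
lemma isMulCocycle₁_one {G M : Type*} [Monoid G] [CommGroup M] [MulDistribMulAction G M]
    {f : G → M} (hf : IsMulCocycle₁ f) : f 1 = 1 := by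
  have := hf 1 1
  simpa using this

/-- **Hilbert 90 in the limit (plain form).** A level-constant multiplicative 1-cocycle of
`Gal(Ω/K)` with values in `Ωˣ` is a coboundary. -/
theorem isMulCoboundary₁_of_levelConstant (f : (Ω ≃ₐ[K] Ω) → Ωˣ) (hf : IsMulCocycle₁ f)
    (E : IntermediateField K Ω) [FiniteDimensional K E]
    (hE : ∀ g s : Ω ≃ₐ[K] Ω, s ∈ E.fixingSubgroup → f (g * s) = f g) :
    IsMulCoboundary₁ f := by
  classical
  -- the finite Galois level
  set N : IntermediateField K Ω := IntermediateField.normalClosure K E Ω with hN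
  have hfd : FiniteDimensional K N := normalClosure.is_finiteDimensional K E Ω
  have hn : Normal K N := normalClosure.normal K E Ω
  have hVE : N.fixingSubgroup ≤ E.fixingSubgroup :=
    IntermediateField.fixingSubgroup_antitone (IntermediateField.le_normalClosure E)
  have hnorm : N.fixingSubgroup.Normal := inferInstance
  have hf1 : f 1 = 1 := isMulCocycle₁_one hf
  -- `f` is trivial on `V`
  have hfV : ∀ s ∈ N.fixingSubgroup, f s = 1 := by
    intro s hs
    have := hE 1 s (hVE hs)
    rwa [one_mul, hf1] at this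
  -- values are fixed by `V`, hence lie in `N`
  have hval : ∀ g : Ω ≃ₐ[K] Ω, ((f g : Ωˣ) : Ω) ∈ N := by
    intro g
    rw [← InfiniteGalois.fixedField_fixingSubgroup N, IntermediateField.mem_fixedField_iff]
    intro s hs
    have h1 : f (s * g) = s • f g * f s := hf s g
    have h2 : s * g = g * (g⁻¹ * s * g) := by group
    have h3 : g⁻¹ * s * g ∈ N.fixingSubgroup := by
      have := hnorm.conj_mem s hs g⁻¹
      simpa using this
    rw [h2, hE g _ (hVE h3), hfV s hs, mul_one] at h1
    have h4 := congrArg (fun u : Ωˣ => (u : Ω)) h1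
    simpa [AlgEquiv.smul_units_def] using h4.symm
  -- dependence on the restriction only
  have hres : ∀ g g' : Ω ≃ₐ[K] Ω, AlgEquiv.restrictNormalHom N g = AlgEquiv.restrictNormalHom N g' →
      f g = f g' := by
    intro g g' h
    have h1 : g⁻¹ * g' ∈ N.fixingSubgroup := by
      rw [← IntermediateField.restrictNormalHom_ker, MonoidHom.mem_ker, map_mul, map_inv, h,
        inv_mul_cancel]
    have := hE g _ (hVE h1)
    rw [mul_inv_cancel_left] at this
    exact this.symm
  -- the finite-level cocycle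
  let fbar : (N ≃ₐ[K] N) → Nˣ := fun σ =>
    Units.mk0 ⟨((f (σ.liftNormal Ω) : Ωˣ) : Ω), hval _⟩ (by
      intro h
      exact (f (σ.liftNormal Ω)).ne_zero (congrArg Subtype.val h))
  have hfbar : ∀ g : Ω ≃ₐ[K] Ω,
      ((fbar (AlgEquiv.restrictNormalHom N g) : Nˣ) : N) = ⟨((f g : Ωˣ) : Ω), hval g⟩ := by
    intro g
    apply Subtype.ext
    simp only [fbar, Units.val_mk0]
    have : f ((AlgEquiv.restrictNormalHom N g).liftNormal Ω) = f g :=
      hres _ _ (AlgEquiv.restrict_liftNormal Ω _)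
    rw [this]
  have hcoc : IsMulCocycle₁ fbar := by
    intro σ τ
    obtain ⟨g, rfl⟩ := AlgEquiv.restrictNormalHom_surjective Ω σ
    obtain ⟨h, rfl⟩ := AlgEquiv.restrictNormalHom_surjective Ω τ
    rw [← map_mul]
    apply Units.ext
    apply Subtype.ext
    rw [hfbar, Units.val_mul, MulMemClass.coe_mul, hfbar, AlgEquiv.smul_units_def, Units.coe_map]
    simp only [MonoidHom.coe_coe]
    rw [AlgEquiv.restrictNormalHom_apply, hfbar]
    have := congrArg (fun u : Ωˣ => (u : Ω)) (hf g h)
    simpa [AlgEquiv.smul_units_def] using this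
  obtain ⟨β, hβ⟩ := isMulCoboundary₁_of_isMulCocycle₁_of_aut_to_units fbar hcoc
  refine ⟨Units.map (algebraMap N Ω : N →* Ω) β, fun g => ?_⟩
  have h1 := hβ (AlgEquiv.restrictNormalHom N g)
  apply Units.ext
  have h2 := congrArg (fun u : Nˣ => ((u : N) : Ω)) h1
  simp only [hfbar] at h2
  rw [← h2]
  simp [AlgEquiv.smul_units_def, Units.val_div_eq_div_val, AlgEquiv.restrictNormalHom_apply]

/-- degree-1 differential of the inhomogeneous complex, evaluated -/
lemma d_one_apply {k G : Type} [CommRing k] [Group G] (A : Rep k G) (f : (Fin 1 → G) → A)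
    (g : Fin 2 → G) :
    inhomogeneousCochains.d A 1 f g =
      A.ρ (g 0) (f fun _ => g 1) - f (fun _ => g 0 * g 1) + f fun _ => g 0 := by
  rw [inhomogeneousCochains.d_hom_apply, Fin.sum_univ_two]
  have e1 : (fun i : Fin 1 => g i.succ) = fun _ => g 1 := by
    funext i; fin_cases i; rfl
  have e2 : Fin.contractNth (0 : Fin 2) (· * ·) g = fun _ => g 0 * g 1 := by
    funext i; fin_cases i; rfl
  have e3 : Fin.contractNth (1 : Fin 2) (· * ·) g = fun _ => g 0 := by
    funext i; fin_cases i; rfl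
  rw [e1, e2, e3]
  simp [sub_eq_add_neg, add_assoc]

/-- degree-0 differential of the inhomogeneous complex, evaluated -/
lemma d_zero_apply {k G : Type} [CommRing k] [Group G] (A : Rep k G) (b : (Fin 0 → G) → A)
    (g : Fin 1 → G) :
    inhomogeneousCochains.d A 0 b g = A.ρ (g 0) (b default) - b default := by
  rw [inhomogeneousCochains.d_hom_apply, Fin.sum_univ_one]
  have e1 : (fun i : Fin 0 => g i.succ) = default := Subsingleton.elim _ _
  have e2 : Fin.contractNth (0 : Fin 1) (· * ·) g = default := Subsingleton.elim _ _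
  rw [e1, e2]
  simp [sub_eq_add_neg]

/-- **(ABS2) Hilbert 90 in the limit.** -/
theorem hlc_one_unitsRep_eq_zero (x : Hlc (galLevels K Ω) (unitsRep K Ω) 1) : x = 0 := by
  obtain ⟨f, hf, rfl⟩ := Hlc_exists_mk (galLevels K Ω) (unitsRep K Ω) x
  rw [HlcMk_succ_eq_zero_iff]
  have hf' : inhomogeneousCochains.d (unitsRep K Ω) 1 (f : (Fin 1 → (Ω ≃ₐ[K] Ω)) → unitsRep K Ω) = 0 :=
    congrArg Subtype.val hf
  -- plain cocycle
  let f₁ : (Ω ≃ₐ[K] Ω) → Ωˣ := fun g => Additive.toMul ((f : (Fin 1 → (Ω ≃ₐ[K] Ω)) → unitsRep K Ω) fun _ => g)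
  have hcoc : IsMulCocycle₁ f₁ := by
    intro g h
    have := congrFun hf' ![g, h]
    rw [d_one_apply] at this
    simp only [Matrix.cons_val_zero, Matrix.cons_val_one] at this
    have h3 : (f : (Fin 1 → (Ω ≃ₐ[K] Ω)) → unitsRep K Ω) (fun _ => g * h) =
        (unitsRep K Ω).ρ g ((f : (Fin 1 → (Ω ≃ₐ[K] Ω)) → unitsRep K Ω) fun _ => h) +
          (f : (Fin 1 → (Ω ≃ₐ[K] Ω)) → unitsRep K Ω) fun _ => g := by
      have h4 := sub_eq_zero.1 (by rwa [Pi.zero_apply, sub_add_eq_add_sub] at this)
      exact h4.symm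
    exact congrArg Additive.toMul h3
  obtain ⟨E, hE, hlc⟩ := (isLC_galLevels_iff _).1 f.2
  have hlc₁ : ∀ g s : Ω ≃ₐ[K] Ω, s ∈ E.fixingSubgroup → f₁ (g * s) = f₁ g := by
    intro g s hs
    have := hlc (fun _ => g) (fun _ => s) (fun _ => hs)
    exact congrArg Additive.toMul this
  obtain ⟨β, hβ⟩ := isMulCoboundary₁_of_levelConstant f₁ hcoc E hlc₁
  let b : (Fin 0 → (Ω ≃ₐ[K] Ω)) → unitsRep K Ω := fun _ => Additive.ofMul β
  refine ⟨⟨b, IsLC.of_subsingleton_dom b⟩, ?_⟩
  apply Subtype.ext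
  funext g
  rw [lcD_coe, d_zero_apply]
  have hg : g = fun _ => g 0 := by
    funext i; fin_cases i; rfl
  have h5 := hβ (g 0)
  have h6 : (f : (Fin 1 → (Ω ≃ₐ[K] Ω)) → unitsRep K Ω) g = Additive.ofMul (f₁ (g 0)) := by
    conv_lhs => rw [hg]
    rfl
  rw [h6, ← h5]
  rfl

instance subsingleton_hlc_one_unitsRep : Subsingleton (Hlc (galLevels K Ω) (unitsRep K Ω) 1) :=
  ⟨fun x y => (hlc_one_unitsRep_eq_zero x).trans (hlc_one_unitsRep_eq_zero y).symm⟩

end Fermat.Agent.GC.Local.Abs
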