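import Mathlib
import Fermat.Agent.GC.Local.Abs.Hilbert90
import Fermat.Agent.GC.Prof.FiniteLevelH

set_option autoImplicit false

open CategoryTheory IntermediateField groupCohomology

noncomputable section

namespace Fermat.Agent.GC.Local.Abs

open Fermat.Agent.GC.Prof

section Tower

variable (K : Type*) (N Ω : Type) [Field K] [Field N] [Field Ω] [Algebra K N] [Algebra N Ω]
  [Algebra K Ω] [IsScalarTower K N Ω] [Normal K N]

/-- restriction `Gal(Ω/K) → Gal(N/K)` -/
def resN : (Ω ≃ₐ[K] Ω) →* (N ≃ₐ[K] N) := AlgEquiv.restrictNormalHom N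

lemma resN_commutes (g : Ω ≃ₐ[K] Ω) (x : N) :
    algebraMap N Ω (resN K N Ω g x) = g (algebraMap N Ω x) :=
  AlgEquiv.restrictNormal_commutes g N x

/-- the inclusion `Nˣ → Ωˣ` as a morphism of representations of `Gal(Ω/K)` -/
def unitsIncl : Rep.res (resN K N Ω) (Rep.ofAlgebraAutOnUnits K N) ⟶ Rep.ofAlgebraAutOnUnits K Ω :=
  Rep.ofHom ⟨(MonoidHom.toAdditive (Units.map (algebraMap N Ω : N →* Ω))).toIntLinearMap,
    fun g => by
      refine LinearMap.ext fun x => ?_
      show Additive.ofMul (Units.map (algebraMap N Ω : N →* Ω)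
          (Units.map ((resN K N Ω g : N ≃ₐ[K] N) : N →* N) (Additive.toMul x))) =
        Additive.ofMul (Units.map ((g : Ω ≃ₐ[K] Ω) : Ω →* Ω)
          (Units.map (algebraMap N Ω : N →* Ω) (Additive.toMul x)))
      congr 1
      apply Units.ext
      exact resN_commutes K N Ω g _⟩

lemma unitsIncl_apply (x : Additive Nˣ) :
    (unitsIncl K N Ω).hom x = Additive.ofMul (Units.map (algebraMap N Ω : N →* Ω) x.toMul) := rfl

lemma unitsIncl_injective : Function.Injective (unitsIncl K N Ω).hom := by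
  intro x y h
  apply Additive.toMul.injective
  apply Units.ext
  apply (algebraMap N Ω).injective
  have := congrArg (fun z : Additive Ωˣ => ((Additive.toMul z : Ωˣ) : Ω)) h
  exact this

/-- inflation of cochains `Cⁿ(Gal(N/K), Nˣ) → Cⁿ(Gal(Ω/K), Ωˣ)` (Mathlib's `cochainsMap`) -/
abbrev inflUChain : inhomogeneousCochains (Rep.ofAlgebraAutOnUnits K N) ⟶
    inhomogeneousCochains (Rep.ofAlgebraAutOnUnits K Ω) :=
  cochainsMap (resN K N Ω) (unitsIncl K N Ω)

lemma inflUChain_f_apply (n : ℕ) (f : (Fin n → (N ≃ₐ[K] N)) → Rep.ofAlgebraAutOnUnits K N)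
    (g : Fin n → (Ω ≃ₐ[K] Ω)) :
    ((inflUChain K N Ω).f n f : (Fin n → (Ω ≃ₐ[K] Ω)) → Rep.ofAlgebraAutOnUnits K Ω) g =
      (unitsIncl K N Ω).hom (f fun i => resN K N Ω (g i)) := rfl

section LC

variable [IsGalois K Ω] [FiniteDimensional K N]

/-- the image of `N` in `Ω`, as a (finite) intermediate field -/
def imageField : IntermediateField K Ω := (IsScalarTower.toAlgHom K N Ω).fieldRange

instance : FiniteDimensional K (imageField K N Ω) :=
  LinearMap.finiteDimensional_range (IsScalarTower.toAlgHom K N Ω).toLinearMap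

omit [IsGalois K Ω] [FiniteDimensional K N] in
lemma resN_eq_one_of_mem {s : Ω ≃ₐ[K] Ω} (hs : s ∈ (imageField K N Ω).fixingSubgroup) :
    resN K N Ω s = 1 := by
  ext x
  apply (algebraMap N Ω).injective
  rw [resN_commutes]
  exact (IntermediateField.mem_fixingSubgroup_iff _ s).1 hs _ ⟨x, rfl⟩

omit [IsGalois K Ω] [FiniteDimensional K N] in
lemma mem_fixingSubgroup_imageField_iff {s : Ω ≃ₐ[K] Ω} :
    s ∈ (imageField K N Ω).fixingSubgroup ↔ resN K N Ω s = 1 := by
  refine ⟨resN_eq_one_of_mem K N Ω, fun h => ?_⟩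
  rw [IntermediateField.mem_fixingSubgroup_iff]
  rintro _ ⟨x, rfl⟩
  have := resN_commutes K N Ω s x
  rw [h] at this
  exact this.symm

/-- inflated cochains are level-constant -/
lemma isLC_inflUChain (n : ℕ) (f : (Fin n → (N ≃ₐ[K] N)) → Rep.ofAlgebraAutOnUnits K N) :
    IsLC (galLevels K Ω)
      ((inflUChain K N Ω).f n f : (Fin n → (Ω ≃ₐ[K] Ω)) → Rep.ofAlgebraAutOnUnits K Ω) := by
  refine ⟨_, fixingSubgroup_mem_galLevels (imageField K N Ω), fun g s hs => ?_⟩
  rw [inflUChain_f_apply, inflUChain_f_apply]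
  congr 2
  funext i
  rw [Pi.mul_apply, map_mul, resN_eq_one_of_mem K N Ω (hs i), mul_one]

/-- inflation, as a linear map into level-constant cochains -/
def inflBrLin (n : ℕ) : ((Fin n → (N ≃ₐ[K] N)) → Rep.ofAlgebraAutOnUnits K N) →ₗ[ℤ]
    lcSub (galLevels K Ω) (unitsRep K Ω) n :=
  ((inflUChain K N Ω).f n).hom.codRestrict (lcSub (galLevels K Ω) (unitsRep K Ω) n)
    (isLC_inflUChain K N Ω n)

lemma inflBrLin_coe (n : ℕ) (f : (Fin n → (N ≃ₐ[K] N)) → Rep.ofAlgebraAutOnUnits K N) :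
    ((inflBrLin K N Ω n f : lcSub (galLevels K Ω) (unitsRep K Ω) n) :
      (Fin n → (Ω ≃ₐ[K] Ω)) → unitsRep K Ω) = (inflUChain K N Ω).f n f := rfl

lemma inflBrLin_injective (n : ℕ) : Function.Injective (inflBrLin K N Ω n) := by
  intro f f' h
  funext σ
  obtain ⟨g, hg⟩ : ∃ g : Fin n → (Ω ≃ₐ[K] Ω), ∀ i, resN K N Ω (g i) = σ i :=
    ⟨fun i => (σ i).liftNormal Ω, fun i => AlgEquiv.restrict_liftNormal Ω (σ i)⟩
  have h1 := congrFun (congrArg Subtype.val h) g
  rw [inflBrLin_coe, inflBrLin_coe, inflUChain_f_apply, inflUChain_f_apply] at h1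
  have h2 : (fun i => resN K N Ω (g i)) = σ := funext hg
  rw [h2] at h1
  exact unitsIncl_injective K N Ω h1

/-- inflation as a chain map into the level-constant cochains -/
def inflBrChain : inhomogeneousCochains (Rep.ofAlgebraAutOnUnits K N) ⟶
    lcCochains (galLevels K Ω) (unitsRep K Ω) :=
  CochainComplex.ofHom (fun n => ModuleCat.ofHom (inflBrLin K N Ω n)) fun n => by
    ext f : 2
    simp only [lcCochains, CochainComplex.of_d]
    apply Subtype.ext
    have := congr($((inflUChain K N Ω).comm n (n + 1)) f)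
    simp only [CochainComplex.of_d, ModuleCat.hom_comp, LinearMap.comp_apply] at this
    exact this

@[simp]
lemma inflBrChain_f (n : ℕ) : (inflBrChain K N Ω).f n = ModuleCat.ofHom (inflBrLin K N Ω n) := rfl

lemma inflBrChain_comp_lcCochainsι :
    inflBrChain K N Ω ≫ lcCochainsι (galLevels K Ω) (unitsRep K Ω) = inflUChain K N Ω := by
  ext n f : 3
  rfl

/-- **inflation** `Hⁿ(Gal(N/K), Nˣ) ⟶ Hlcⁿ(Gal(Ω/K), Ωˣ)` -/
def inflBr (n : ℕ) : groupCohomology (Rep.ofAlgebraAutOnUnits K N) n ⟶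
    Hlc (galLevels K Ω) (unitsRep K Ω) n :=
  HomologicalComplex.homologyMap (inflBrChain K N Ω) n

end LC

end Tower

section Surj

variable {K : Type*} {Ω : Type} [Field K] [Field Ω] [Algebra K Ω] [IsGalois K Ω]

omit [IsGalois K Ω] in
lemma imageField_eq (N : IntermediateField K Ω) [Normal K N] : imageField K N Ω = N := by
  ext x
  constructor
  · rintro ⟨y, rfl⟩
    exact y.2
  · intro hx
    exact ⟨⟨x, hx⟩, rfl⟩

omit [IsGalois K Ω] in
lemma mem_fixingSubgroup_iff_resN (N : IntermediateField K Ω) [Normal K N] {s : Ω ≃ₐ[K] Ω} :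
    s ∈ N.fixingSubgroup ↔ resN K N Ω s = 1 := by
  have := mem_fixingSubgroup_imageField_iff K N Ω (s := s)
  rwa [imageField_eq] at this

/-- **(Br1), cochain level**: every level-constant cochain with values in `Ωˣ` is inflated from
a finite Galois level `N ⊇ N₀`. -/
theorem exists_eq_inflBrLin {n : ℕ} (f : lcSub (galLevels K Ω) (unitsRep K Ω) n)
    (N₀ : IntermediateField K Ω) [FiniteDimensional K N₀] :
    ∃ (N : IntermediateField K Ω) (_ : FiniteDimensional K N) (_ : IsGalois K N), N₀ ≤ N ∧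
      ∃ fbar : (Fin n → (N ≃ₐ[K] N)) → Rep.ofAlgebraAutOnUnits K N,
        inflBrLin K N Ω n fbar = f := by
  classical
  obtain ⟨V, hV, hVn, -, hlev, hfix⟩ := IsLC.exists_level (unitsRep K Ω) f.2
  obtain ⟨N', hN'fd, hN'gal, rfl⟩ := exists_isGalois_of_mem_galLevels hV
  -- the level `N`
  have hfd0 : FiniteDimensional K (IntermediateField.normalClosure K N₀ Ω) :=
    normalClosure.is_finiteDimensional K N₀ Ω
  have hn0 : Normal K (IntermediateField.normalClosure K N₀ Ω) := normalClosure.normal K N₀ Ω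
  set N : IntermediateField K Ω := N' ⊔ IntermediateField.normalClosure K N₀ Ω with hN
  have hNfd : FiniteDimensional K N := IntermediateField.finiteDimensional_sup _ _
  have hNn : Normal K N := IntermediateField.normal_sup K Ω _ _
  have hNgal : IsGalois K N := ⟨⟩
  have hle : N.fixingSubgroup ≤ N'.fixingSubgroup :=
    IntermediateField.fixingSubgroup_antitone le_sup_left
  refine ⟨N, hNfd, hNgal, (IntermediateField.le_normalClosure N₀).trans le_sup_right, ?_⟩
  -- values lie in `N`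
  have hval : ∀ g, ((Additive.toMul ((f : (Fin n → (Ω ≃ₐ[K] Ω)) → unitsRep K Ω) g) : Ωˣ) : Ω) ∈ N := by
    intro g
    rw [← InfiniteGalois.fixedField_fixingSubgroup N, IntermediateField.mem_fixedField_iff]
    intro s hs
    have := hfix s (hle hs) g
    have h2 := congrArg (fun z : Additive Ωˣ => ((Additive.toMul z : Ωˣ) : Ω)) this
    exact h2
  let lift : (Fin n → (N ≃ₐ[K] N)) → (Fin n → (Ω ≃ₐ[K] Ω)) := fun σ i => (σ i).liftNormal Ω
  let fbar : (Fin n → (N ≃ₐ[K] N)) → Rep.ofAlgebraAutOnUnits K N := fun σ =>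
    Additive.ofMul (Units.mk0 ⟨_, hval (lift σ)⟩ (by
      intro h
      exact (Additive.toMul ((f : (Fin n → (Ω ≃ₐ[K] Ω)) → unitsRep K Ω) (lift σ))).ne_zero
        (congrArg Subtype.val h)))
  refine ⟨fbar, ?_⟩
  apply Subtype.ext
  funext g
  rw [inflBrLin_coe, inflUChain_f_apply]
  have h1 : (unitsIncl K N Ω).hom (fbar fun i => resN K N Ω (g i)) =
      (f : (Fin n → (Ω ≃ₐ[K] Ω)) → unitsRep K Ω) (lift fun i => resN K N Ω (g i)) := by
    apply Additive.toMul.injective
    apply Units.ext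
    rfl
  rw [h1]
  have h2 : g = (lift fun i => resN K N Ω (g i)) * fun i => ((lift fun i => resN K N Ω (g i)) i)⁻¹ * g i := by
    funext i
    simp
  conv_rhs => rw [h2]
  refine (hlev _ _ fun i => hle ?_).symm
  rw [mem_fixingSubgroup_iff_resN, map_mul, map_inv]
  have : resN K N Ω ((lift fun i => resN K N Ω (g i)) i) = resN K N Ω (g i) :=
    AlgEquiv.restrict_liftNormal Ω _
  rw [this, inv_mul_cancel]

end Surj

end Fermat.Agent.GC.Local.Abs
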