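/-
GATE-C / C3-ABS (helper81), part (ABS3): `Br(K) = Hlc²(Gal(Ω/K), Ωˣ)` is the directed union of the
INJECTIVE inflations of `H²(Gal(N/K), Nˣ)`, `N/K` finite Galois inside `Ω`.

* `exists_coboundary_of_infl_eq` : abstract injectivity of inflation in degree 2 (plain cochains).
* `exists_coboundary_on_ker`     : Hilbert 90 in the limit for the open subgroup `Gal(Ω/N)`.
* `exists_descent₁`              : descent of `V`-invariant functions to the finite level.
* `exists_d₁₂_eq_of_infl_eq`     : injectivity, plain-function form.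
* `inflBr_two_eq_zero`, `inflBr_two_injective` : `inflBr K N Ω 2` is injective.
* `exists_inflBr_eq`             : every class of `Hlcⁿ` is inflated from a finite Galois level.
-/
import Mathlib
import Fermat.Agent.GC.Local.Abs.Brauer
import Fermat.Agent.GC.Prof.Low

set_option autoImplicit false

open CategoryTheory IntermediateField groupCohomology

noncomputable section

namespace Fermat.Agent.GC.Local.Abs

open Fermat.Agent.GC.Prof Fermat.Agent.GC.Prof.Elt

/-- **Abstract injectivity of inflation in degree 2.**  `π : G → Q` surjective with kernel `V`,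
`ι : A → M` an injective `π`-equivariant map.  Assume (`h90`) every admissible 1-cochain of `G`
which is a cocycle on `V` is a coboundary on `V`, and (`hdesc`) functions constant on `V`-cosets
with `V`-fixed values descend to `Q → A`.  If the inflation of a 2-cocycle `c` of `Q` is the
coboundary of an admissible 1-cochain, then `c` is a coboundary. -/
theorem exists_coboundary_of_infl_eq {k G Q : Type} [CommRing k] [Group G] [Group Q]
    (π : G →* Q) (hπ : Function.Surjective π) (A : Rep k Q) (M : Rep k G)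
    (ι : A →ₗ[k] M) (hι : Function.Injective ι)
    (hιρ : ∀ (g : G) (a : A), ι (A.ρ (π g) a) = M.ρ g (ι a))
    (P : (G → M) → Prop) (hPsub : ∀ (x : G → M) (m : M), P x → P fun g => x g - m)
    (h90 : ∀ x' : G → M, P x' →
      (∀ s t : G, π s = 1 → π t = 1 → x' (s * t) = M.ρ s (x' t) + x' s) →
      ∃ b : M, ∀ s : G, π s = 1 → x' s = M.ρ s b - b)
    (hdesc : ∀ y : G → M, (∀ g s : G, π s = 1 → y (g * s) = y g) →
      (∀ g s : G, π s = 1 → M.ρ s (y g) = y g) → ∃ ybar : Q → A, ∀ g, y g = ι (ybar (π g)))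
    (c : Q × Q → A) (hc : c ∈ cocycles₂ A) (x : G → M) (hx : P x)
    (hxc : ∀ g h : G, M.ρ g (x h) - x (g * h) + x g = ι (c (π g, π h))) :
    ∃ xbar : Q → A, ∀ σ τ : Q, A.ρ σ (xbar τ) - xbar (σ * τ) + xbar σ = c (σ, τ) := by
  classical
  rw [mem_cocycles₂_iff] at hc
  have hc1 : ∀ j, c (1, j) = c (1, 1) := by
    intro j
    have := hc 1 1 j
    rw [one_mul, one_mul, map_one, Module.End.one_apply] at this
    exact (add_left_cancel this).symm
  have hc2 : ∀ g, c (g, 1) = A.ρ g (c (1, 1)) := by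
    intro g
    have := hc g 1 1
    rw [mul_one, mul_one] at this
    exact add_right_cancel this
  obtain ⟨e, he⟩ : ∃ e : A, c (1, 1) = e := ⟨_, rfl⟩
  rw [he] at hc2
  simp only [he] at hc1
  have hmfix : ∀ s : G, π s = 1 → M.ρ s (ι e) = ι e := by
    intro s hs
    rw [← hιρ, hs, map_one, Module.End.one_apply]
  -- first correction
  have hdx' : ∀ g h, M.ρ g (x h - ι e) - (x (g * h) - ι e) +
      (x g - ι e) = ι (c (π g, π h)) - M.ρ g (ι e) := by
    intro g h
    rw [← hxc g h, map_sub]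
    abel
  have hcocV : ∀ s t : G, π s = 1 → π t = 1 →
      (x (s * t) - ι e) = M.ρ s (x t - ι e) + (x s - ι e) := by
    intro s t hs ht
    have := hdx' s t
    rw [hs, ht, he, hmfix s hs, sub_self] at this
    have h2 := sub_eq_zero.1 (by rwa [sub_add_eq_add_sub] at this)
    exact h2.symm
  obtain ⟨b, hb⟩ := h90 (fun g => x g - ι e) (hPsub x _ hx) hcocV
  -- second correction
  have hdx'' : ∀ g h, M.ρ g ((x h - ι e) - (M.ρ h b - b)) -
      ((x (g * h) - ι e) - (M.ρ (g * h) b - b)) +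
      ((x g - ι e) - (M.ρ g b - b)) = ι (c (π g, π h)) - M.ρ g (ι e) := by
    intro g h
    rw [← hdx' g h]
    simp only [map_sub, map_mul, Module.End.mul_apply]
    abel
  have hx''V : ∀ s : G, π s = 1 → (x s - ι e) - (M.ρ s b - b) = 0 := by
    intro s hs
    rw [hb s hs, sub_self]
  have hr1 : ∀ g s : G, π s = 1 → ((x (g * s) - ι e) - (M.ρ (g * s) b - b)) =
      ((x g - ι e) - (M.ρ g b - b)) := by
    intro g s hs
    have := hdx'' g s
    rw [hs, hc2, hιρ, sub_self, hx''V s hs, map_zero, zero_sub] at this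
    exact neg_add_eq_zero.1 this
  have hr2 : ∀ g s : G, π s = 1 → M.ρ s ((x g - ι e) - (M.ρ g b - b)) =
      ((x g - ι e) - (M.ρ g b - b)) := by
    intro g s hs
    have := hdx'' s g
    rw [hs, hc1, hmfix s hs, sub_self, hx''V s hs, add_zero] at this
    have h2 := sub_eq_zero.1 this
    rw [h2]
    have h3 : s * g = g * (g⁻¹ * s * g) := by group
    rw [h3]
    apply hr1
    rw [map_mul, map_mul, hs, mul_one, map_inv, inv_mul_cancel]
  obtain ⟨ybar, hy⟩ := hdesc (fun g => (x g - ι e) - (M.ρ g b - b)) hr1 hr2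
  refine ⟨fun σ => ybar σ + e, fun σ τ => ?_⟩
  obtain ⟨g, rfl⟩ := hπ σ
  obtain ⟨h, rfl⟩ := hπ τ
  apply hι
  have := hdx'' g h
  have e1 : (x g - ι e) - (M.ρ g b - b) = ι (ybar (π g)) := hy g
  have e2 : (x h - ι e) - (M.ρ h b - b) = ι (ybar (π h)) := hy h
  have e3 : (x (g * h) - ι e) - (M.ρ (g * h) b - b) = ι (ybar (π (g * h))) := hy (g * h)
  rw [e1, e2, e3, ← hιρ, ← map_sub, ← map_add, ← hιρ, ← map_sub] at this
  have h4 := hι this
  congr 1
  rw [← map_mul, map_add]
  have h5 : A.ρ (π g) (ybar (π h)) + A.ρ (π g) e - (ybar (π (g * h)) + e) + (ybar (π g) + e) =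
      (A.ρ (π g) (ybar (π h)) - ybar (π (g * h)) + ybar (π g)) + A.ρ (π g) e := by abel
  rw [h5, h4, sub_add_cancel]

section Subgroup90

variable (K : Type*) (N Ω : Type) [Field K] [Field N] [Field Ω] [Algebra K N] [Algebra N Ω]
  [Algebra K Ω] [IsScalarTower K N Ω] [Normal K N] [IsGalois K Ω]

/-- An automorphism fixing generators fixes the generated field. -/
lemma algEquiv_apply_eq_of_mem_adjoin {F L : Type*} [Field F] [Field L] [Algebra F L]
    (τ : L ≃ₐ[F] L) (s : Set L) (h : ∀ a ∈ s, τ a = a) {x : L}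
    (hx : x ∈ IntermediateField.adjoin F s) : τ x = x := by
  induction hx using IntermediateField.adjoin_induction with
  | mem a ha => exact h a ha
  | algebraMap a => exact τ.commutes a
  | add a b _ _ ha hb => rw [map_add, ha, hb]
  | inv a _ ha => rw [map_inv₀, ha]
  | mul a b _ _ ha hb => rw [map_mul, ha, hb]

/-- A finite separable intermediate field is simple. -/
lemma exists_adjoin_simple_eq {F L : Type*} [Field F] [Field L] [Algebra F L]
    (E : IntermediateField F L) [FiniteDimensional F E] [Algebra.IsSeparable F E] :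
    ∃ a : L, E = F⟮a⟯ := by
  obtain ⟨α, hα⟩ := Field.exists_primitive_element F E
  refine ⟨α, ?_⟩
  have := congrArg (IntermediateField.map E.val) hα
  rw [IntermediateField.adjoin_map, ← AlgHom.fieldRange_eq_map, IntermediateField.fieldRange_val,
    Set.image_singleton] at this
  exact this.symm

/-- an element of `ker (resN)` as an `N`-automorphism -/
def kerToGalN (s : Ω ≃ₐ[K] Ω) (hs : resN K N Ω s = 1) : Ω ≃ₐ[N] Ω :=
  AlgEquiv.ofRingEquiv (f := s.toRingEquiv) (fun x => by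
    have := resN_commutes K N Ω s x
    rw [hs] at this
    exact this.symm)

omit [IsGalois K Ω] in
lemma kerToGalN_apply (s : Ω ≃ₐ[K] Ω) (hs : resN K N Ω s = 1) (x : Ω) :
    kerToGalN K N Ω s hs x = s x := rfl

omit [IsGalois K Ω] in
lemma resN_restrictScalars (τ : Ω ≃ₐ[N] Ω) : resN K N Ω (τ.restrictScalars K) = 1 := by
  ext x
  apply (algebraMap N Ω).injective
  rw [resN_commutes]
  exact τ.commutes x

/-- **Hilbert 90 in the limit for the open subgroup `ker (Gal(Ω/K) → Gal(N/K))`.** -/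
theorem exists_coboundary_on_ker (u : (Ω ≃ₐ[K] Ω) → Ωˣ)
    (hu : ∀ s t : Ω ≃ₐ[K] Ω, resN K N Ω s = 1 → resN K N Ω t = 1 → u (s * t) = s • u t * u s)
    (E : IntermediateField K Ω) [FiniteDimensional K E]
    (hE : ∀ g s : Ω ≃ₐ[K] Ω, s ∈ E.fixingSubgroup → u (g * s) = u g) :
    ∃ β : Ωˣ, ∀ s : Ω ≃ₐ[K] Ω, resN K N Ω s = 1 → s • β / β = u s := by
  have : IsGalois N Ω := IsGalois.tower_top_of_isGalois K N Ω
  obtain ⟨a, rfl⟩ := exists_adjoin_simple_eq E
  let f : (Ω ≃ₐ[N] Ω) → Ωˣ := fun τ => u (τ.restrictScalars K)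
  have hf : IsMulCocycle₁ f := by
    intro τ τ'
    exact hu _ _ (resN_restrictScalars K N Ω τ) (resN_restrictScalars K N Ω τ')
  have ha : IsIntegral N a := (Algebra.IsIntegral.isIntegral (R := K) a).tower_top
  have : FiniteDimensional N N⟮a⟯ := IntermediateField.adjoin.finiteDimensional ha
  have hlc : ∀ g s : Ω ≃ₐ[N] Ω, s ∈ (N⟮a⟯).fixingSubgroup → f (g * s) = f g := by
    intro g s hs
    refine hE (g.restrictScalars K) (s.restrictScalars K) ?_
    rw [IntermediateField.mem_fixingSubgroup_iff]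
    intro x hx
    refine algEquiv_apply_eq_of_mem_adjoin (s.restrictScalars K) {a} ?_ hx
    intro b hb
    rw [Set.mem_singleton_iff.1 hb]
    exact (IntermediateField.mem_fixingSubgroup_iff _ s).1 hs a
      (IntermediateField.mem_adjoin_simple_self N a)
  obtain ⟨β, hβ⟩ := isMulCoboundary₁_of_levelConstant f hf N⟮a⟯ hlc
  refine ⟨β, fun s hs => ?_⟩
  have := hβ (kerToGalN K N Ω s hs)
  have h1 : (kerToGalN K N Ω s hs).restrictScalars K = s := by
    ext x; rfl
  simp only [f, h1] at this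
  rw [← this]
  rfl

/-- **Descent to the finite level**: a function on `Gal(Ω/K)` with values in `Ωˣ`, constant on
cosets of `V := ker (Gal(Ω/K) → Gal(N/K))` and with `V`-fixed values, comes from `Gal(N/K) → Nˣ`. -/
theorem exists_descent₁ (y : (Ω ≃ₐ[K] Ω) → Rep.ofAlgebraAutOnUnits K Ω)
    (h1 : ∀ g s : Ω ≃ₐ[K] Ω, resN K N Ω s = 1 → y (g * s) = y g)
    (h2 : ∀ g s : Ω ≃ₐ[K] Ω, resN K N Ω s = 1 → (Rep.ofAlgebraAutOnUnits K Ω).ρ s (y g) = y g) :
    ∃ ybar : (N ≃ₐ[K] N) → Rep.ofAlgebraAutOnUnits K N,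
      ∀ g, y g = (unitsIncl K N Ω).hom (ybar (resN K N Ω g)) := by
  classical
  have hval : ∀ g, ∃ a : N, algebraMap N Ω a = ((Additive.toMul (y g) : Ωˣ) : Ω) := by
    intro g
    have hmem : ((Additive.toMul (y g) : Ωˣ) : Ω) ∈ imageField K N Ω := by
      rw [← InfiniteGalois.fixedField_fixingSubgroup (imageField K N Ω),
        IntermediateField.mem_fixedField_iff]
      intro s hs
      have := h2 g s ((mem_fixingSubgroup_imageField_iff K N Ω).1 hs)
      exact congrArg (fun z : Additive Ωˣ => ((Additive.toMul z : Ωˣ) : Ω)) this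
    obtain ⟨a, ha⟩ := hmem
    exact ⟨a, ha⟩
  choose a ha using hval
  have hne : ∀ g, a g ≠ 0 := by
    intro g h0
    have := ha g
    rw [h0, map_zero] at this
    exact (Additive.toMul (y g)).ne_zero this.symm
  refine ⟨fun σ => Additive.ofMul (Units.mk0 (a (σ.liftNormal Ω)) (hne _)), fun g => ?_⟩
  have h3 : y g = y ((resN K N Ω g).liftNormal Ω) := by
    have h4 : g = (resN K N Ω g).liftNormal Ω * (((resN K N Ω g).liftNormal Ω)⁻¹ * g) := by
      rw [mul_inv_cancel_left]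
    conv_lhs => rw [h4]
    apply h1
    rw [map_mul, map_inv]
    have : resN K N Ω ((resN K N Ω g).liftNormal Ω) = resN K N Ω g :=
      AlgEquiv.restrict_liftNormal Ω _
    rw [this, inv_mul_cancel]
  rw [h3]
  apply Additive.toMul.injective
  apply Units.ext
  exact (ha _).symm

end Subgroup90

section Inj

variable (K : Type*) (N Ω : Type) [Field K] [Field N] [Field Ω] [Algebra K N] [Algebra N Ω]
  [Algebra K Ω] [IsScalarTower K N Ω] [Normal K N] [IsGalois K Ω]



omit [IsGalois K Ω] in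
lemma unitsIncl_ρ (g : Ω ≃ₐ[K] Ω) (a : Rep.ofAlgebraAutOnUnits K N) :
    (unitsIncl K N Ω).hom ((Rep.ofAlgebraAutOnUnits K N).ρ (resN K N Ω g) a) =
      (Rep.ofAlgebraAutOnUnits K Ω).ρ g ((unitsIncl K N Ω).hom a) :=
  Rep.hom_comm_apply (unitsIncl K N Ω) g a

lemma resN_surjective : Function.Surjective (resN K N Ω) :=
  AlgEquiv.restrictNormalHom_surjective Ω

/-- **Injectivity of inflation in degree 2, plain-function form.** -/
theorem exists_d₁₂_eq_of_infl_eq (c : (N ≃ₐ[K] N) × (N ≃ₐ[K] N) → Rep.ofAlgebraAutOnUnits K N)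
    (hc : c ∈ cocycles₂ (Rep.ofAlgebraAutOnUnits K N))
    (x : (Ω ≃ₐ[K] Ω) → Rep.ofAlgebraAutOnUnits K Ω) (hx : IsLC₁ (galLevels K Ω) x)
    (hxc : ∀ g h : Ω ≃ₐ[K] Ω, (d₁₂ (Rep.ofAlgebraAutOnUnits K Ω)).hom x (g, h) =
      (unitsIncl K N Ω).hom (c (resN K N Ω g, resN K N Ω h))) :
    ∃ xbar : (N ≃ₐ[K] N) → Rep.ofAlgebraAutOnUnits K N,
      (d₁₂ (Rep.ofAlgebraAutOnUnits K N)).hom xbar = c := by
  obtain ⟨xbar, hxbar⟩ := exists_coboundary_of_infl_eq (resN K N Ω) (resN_surjective K N Ω)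
    (Rep.ofAlgebraAutOnUnits K N) (Rep.ofAlgebraAutOnUnits K Ω)
    (unitsIncl K N Ω).hom.toLinearMap (unitsIncl_injective K N Ω) (unitsIncl_ρ K N Ω)
    (fun x => IsLC₁ (galLevels K Ω) x)
    (fun x m hx => by
      obtain ⟨U, hU, h⟩ := hx
      exact ⟨U, hU, fun g s hs => by
        show x (g * s) - m = x g - m
        rw [h g s hs]⟩)
    (fun x' hx' hcoc => by
      obtain ⟨_, ⟨E, hEfd, rfl⟩, hE⟩ := hx'
      obtain ⟨β, hβ⟩ := exists_coboundary_on_ker K N Ω (fun g => Additive.toMul (x' g))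
        (fun s t hs ht => congrArg Additive.toMul (hcoc s t hs ht)) E
        (fun g s hs => congrArg Additive.toMul (hE g s hs))
      exact ⟨Additive.ofMul β, fun s hs => (congrArg Additive.ofMul (hβ s hs)).symm⟩)
    (exists_descent₁ K N Ω) c hc x hx
    (fun g h => by
      have := hxc g h
      rw [d₁₂_hom_apply] at this
      exact this)
  refine ⟨xbar, ?_⟩
  funext ⟨σ, τ⟩
  rw [d₁₂_hom_apply]
  exact hxbar σ τ

variable [FiniteDimensional K N]

/-- **(ABS3) injectivity**: the inflation `H²(Gal(N/K), Nˣ) → Hlc²(Gal(Ω/K), Ωˣ)` is injective. -/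
theorem inflBr_two_eq_zero (y : groupCohomology (Rep.ofAlgebraAutOnUnits K N) 2)
    (hy : inflBr K N Ω 2 y = 0) : y = 0 := by
  obtain ⟨z, rfl⟩ := hMk_surjective (inhomogeneousCochains (Rep.ofAlgebraAutOnUnits K N)) 2 y
  have hy' : hMk (lcCochains (galLevels K Ω) (unitsRep K Ω)) 2 (zMap (inflBrChain K N Ω) 2 z) = 0 :=
    (homologyMap_hMk (inflBrChain K N Ω) 2 z).symm.trans hy
  obtain ⟨b, hb⟩ := (hMk_eq_zero_iff_succ (lcCochains (galLevels K Ω) (unitsRep K Ω)) 1 _).1 hy'
  change lcSub (galLevels K Ω) (unitsRep K Ω) 1 at b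
  rw [zMap_coe, lcCochains_d] at hb
  -- plain data
  have hb' : lcD (galLevels K Ω) (unitsRep K Ω) 1 b = inflBrLin K N Ω 2 z.1 := hb
  set c : (N ≃ₐ[K] N) × (N ≃ₐ[K] N) → Rep.ofAlgebraAutOnUnits K N :=
    (cochainsIso₂ (Rep.ofAlgebraAutOnUnits K N)).hom z.1 with hcdef
  have hc : c ∈ cocycles₂ (Rep.ofAlgebraAutOnUnits K N) := by
    have h1 := congr($(comp_d₂₃_eq (Rep.ofAlgebraAutOnUnits K N)) z.1)
    have h2 : (inhomogeneousCochains (Rep.ofAlgebraAutOnUnits K N)).d 2 3 z.1 = 0 := z.2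
    simp only [ModuleCat.hom_comp, LinearMap.comp_apply] at h1
    rw [h2, map_zero] at h1
    exact h1
  obtain ⟨xbar, hxbar⟩ := exists_d₁₂_eq_of_infl_eq K N Ω c hc
    (lcEquiv₁ (galLevels K Ω) (unitsRep K Ω) b : (Ω ≃ₐ[K] Ω) → unitsRep K Ω)
    (lcEquiv₁ (galLevels K Ω) (unitsRep K Ω) b).2
    (fun g h => by
      rw [← lcEquiv₂_lcD, hb']
      show (unitsIncl K N Ω).hom (z.1 fun i => resN K N Ω (![g, h] i)) =
        (unitsIncl K N Ω).hom (z.1 ![resN K N Ω g, resN K N Ω h])
      have harg : (fun i => resN K N Ω (![g, h] i)) = ![resN K N Ω g, resN K N Ω h] := by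
        funext i
        fin_cases i <;> rfl
      rw [harg])
  refine (hMk_eq_zero_iff_succ (inhomogeneousCochains (Rep.ofAlgebraAutOnUnits K N)) 1 z).2
    ⟨(cochainsIso₁ (Rep.ofAlgebraAutOnUnits K N)).inv xbar, ?_⟩
  refine (congr($(eq_d₁₂_comp_inv (Rep.ofAlgebraAutOnUnits K N)) xbar)).trans ?_
  show (cochainsIso₂ (Rep.ofAlgebraAutOnUnits K N)).inv
    ((d₁₂ (Rep.ofAlgebraAutOnUnits K N)).hom xbar) = z.1
  rw [hxbar, hcdef]
  exact congr($((cochainsIso₂ (Rep.ofAlgebraAutOnUnits K N)).hom_inv_id) z.1)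

theorem inflBr_two_injective : Function.Injective (inflBr K N Ω 2) := by
  intro y y' h
  have := inflBr_two_eq_zero K N Ω (y - y') (by rw [map_sub, h, sub_self])
  exact sub_eq_zero.1 this

end Inj

section SurjH

variable {K : Type*} {Ω : Type} [Field K] [Field Ω] [Algebra K Ω] [IsGalois K Ω]

/-- **(ABS3) surjectivity**: every class of `Hlcⁿ(Gal(Ω/K), Ωˣ)` is inflated from a finite Galois
level `N ⊇ N₀`. -/
theorem exists_inflBr_eq {n : ℕ} (x : Hlc (galLevels K Ω) (unitsRep K Ω) n)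
    (N₀ : IntermediateField K Ω) [FiniteDimensional K N₀] :
    ∃ (N : IntermediateField K Ω) (_ : FiniteDimensional K N) (_ : IsGalois K N), N₀ ≤ N ∧
      ∃ y : groupCohomology (Rep.ofAlgebraAutOnUnits K N) n, inflBr K N Ω n y = x := by
  obtain ⟨z, rfl⟩ := hMk_surjective (lcCochains (galLevels K Ω) (unitsRep K Ω)) n x
  have hz : lcD (galLevels K Ω) (unitsRep K Ω) n z.1 = 0 := by
    have := z.2
    rw [mem_zSub_iff, lcCochains_d] at this
    exact this
  obtain ⟨N, hfd, hgal, hle, fbar, hf⟩ := exists_eq_inflBrLin (K := K) (Ω := Ω)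
    (show lcSub (galLevels K Ω) (unitsRep K Ω) n from z.1) N₀
  refine ⟨N, hfd, hgal, hle, ?_⟩
  have hcoc : fbar ∈ zSub (inhomogeneousCochains (Rep.ofAlgebraAutOnUnits K N)) n := by
    rw [mem_zSub_iff]
    apply inflBrLin_injective K N Ω (n + 1)
    have hcomm := congr($((inflBrChain K N Ω).comm n (n + 1)) fbar)
    rw [lcCochains_d] at hcomm
    simp only [inflBrChain_f] at hcomm
    rw [map_zero]
    refine hcomm.symm.trans ?_
    show lcD (galLevels K Ω) (unitsRep K Ω) n (inflBrLin K N Ω n fbar) = 0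
    rw [hf]
    exact hz
  refine ⟨hMk _ n ⟨fbar, hcoc⟩, ?_⟩
  refine (homologyMap_hMk (inflBrChain K N Ω) n ⟨fbar, hcoc⟩).trans ?_
  congr 1
  apply Subtype.ext
  exact hf

end SurjH

end Fermat.Agent.GC.Local.Abs
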