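import Mathlib
import Fermat.Agent.GC.Local.Abs.BrauerInj

set_option autoImplicit false

open CategoryTheory IntermediateField groupCohomology

noncomputable section

namespace Fermat.Agent.GC.Local.Abs

open Fermat.Agent.GC.Prof Fermat.Agent.GC.Prof.Elt

section Trans

variable (K : Type*) (N N' Ω : Type) [Field K] [Field N] [Field N'] [Field Ω]
  [Algebra K N] [Algebra K N'] [Algebra K Ω] [Algebra N N'] [Algebra N Ω] [Algebra N' Ω]
  [IsScalarTower K N N'] [IsScalarTower K N' Ω] [IsScalarTower K N Ω] [IsScalarTower N N' Ω]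
  [Normal K N] [Normal K N']

/-- restriction is transitive -/
lemma resN_resN (g : Ω ≃ₐ[K] Ω) : resN K N N' (resN K N' Ω g) = resN K N Ω g := by
  ext x
  apply (algebraMap N Ω).injective
  rw [resN_commutes, IsScalarTower.algebraMap_apply N N' Ω, resN_commutes, resN_commutes,
    ← IsScalarTower.algebraMap_apply N N' Ω]

/-- the finite-level inflation `Hⁿ(Gal(N/K), Nˣ) ⟶ Hⁿ(Gal(N'/K), N'ˣ)` for `N ⊆ N'` -/
abbrev inflFin (n : ℕ) : groupCohomology (Rep.ofAlgebraAutOnUnits K N) n ⟶
    groupCohomology (Rep.ofAlgebraAutOnUnits K N') n :=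
  groupCohomology.map (resN K N N') (unitsIncl K N N') n

variable [IsGalois K Ω] [FiniteDimensional K N] [FiniteDimensional K N']

lemma inflUChain_comp_inflBrChain :
    inflUChain K N N' ≫ inflBrChain K N' Ω = inflBrChain K N Ω := by
  ext n f : 3
  apply Subtype.ext
  funext g
  show (unitsIncl K N' Ω).hom ((unitsIncl K N N').hom
      (f fun i => resN K N N' (resN K N' Ω (g i)))) = (unitsIncl K N Ω).hom (f fun i => resN K N Ω (g i))
  simp only [resN_resN]
  apply Additive.toMul.injective
  apply Units.ext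
  exact (IsScalarTower.algebraMap_apply N N' Ω _).symm

/-- **transitivity of inflation** -/
theorem inflFin_comp_inflBr (n : ℕ) :
    inflFin K N N' n ≫ inflBr K N' Ω n = inflBr K N Ω n := by
  have := HomologicalComplex.homologyMap_comp (inflUChain K N N') (inflBrChain K N' Ω) n
  rw [inflUChain_comp_inflBrChain] at this
  exact this.symm

theorem inflBr_inflFin_apply (n : ℕ) (y : groupCohomology (Rep.ofAlgebraAutOnUnits K N) n) :
    inflBr K N' Ω n (inflFin K N N' n y) = inflBr K N Ω n y := by
  rw [← inflFin_comp_inflBr K N N' Ω n]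
  rfl

end Trans

end Fermat.Agent.GC.Local.Abs
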