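/-
GATE-C / C3-ABS (ABS4), helper81.  Kummer theory for `Ωˣ` on level-constant cohomology.

Generic part (`k G : Type u`, `A : Rep k G`, `c : k`):
* `torsSub A c`, `torsRep A c` (the `c`-torsion subrepresentation `A[c]`), `torsι A c : A[c] ⟶ A`,
  `kummerSeq A c hc : KumH.KummerSeq (torsRep A c) A c` for `c`-divisible `A`,
  `isDiscrete_torsRep`.

Units part (`K ⊆ Ω` Galois, `p : ℕ`, `HasRoots Ω p` : every unit of `Ω` is a `p`-th power):
* `toU`, `ofU` : dictionary `unitsRep K Ω ↔ Ωˣ`;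
* `muRep K Ω p := torsRep (unitsRep K Ω) p`, `muι`, `muKummer K h`;
* `HlcMap_muι_two_injective` : `H²(G_K, μ_p) ↪ H²(G_K, Ωˣ)` (Hilbert 90);
* `exists_HlcMap_muι_eq_iff` : the image of `Hⁿ(μ_p)` in `Hⁿ(Ωˣ)` is the `p`-torsion;
* `baseH0 : Additive Kˣ ≃+ H⁰(G_K, Ωˣ)`, `kummerMap`, `kummerMap_surjective`,
  `kummerMap_eq_zero_iff`, `kummerMap_eq` (cocycle `g ↦ g(α)/α`), `kummerEquiv`,
  `card_hlc_one_mu : #H¹(G_K, μ_p) = #Kˣ/(Kˣ)^p`.
-/
import Fermat.Agent.GC.Local.Abs.Hilbert90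
import Fermat.Agent.GC.Kummer.HlcKummer
import Fermat.Agent.GC.Prof.LowMap
import Fermat.Agent.GC.Prof.LESNat
import Fermat.Agent.GC.Tate.Defs

set_option autoImplicit false

open CategoryTheory

noncomputable section

namespace Fermat.Agent.GC.Local.Abs

open Fermat.Agent.GC.Prof Fermat.Agent.GC.KumH

universe u

section Generic

variable {k G : Type u} [CommRing k] [Group G] (A : Rep.{u} k G) (c : k)

/-- The `c`-torsion of a representation, as a submodule. -/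
def torsSub : Submodule k A := LinearMap.ker (c • (LinearMap.id : A →ₗ[k] A))

lemma mem_torsSub_iff (x : A) : x ∈ torsSub A c ↔ c • x = 0 := by
  simp [torsSub]

lemma torsSub_le_comap (g : G) : torsSub A c ≤ (torsSub A c).comap (A.ρ g) := by
  intro x hx
  rw [Submodule.mem_comap, mem_torsSub_iff, ← map_smul, (mem_torsSub_iff A c x).1 hx, map_zero]

/-- The `c`-torsion subrepresentation `A[c]`. -/
def torsRep : Rep.{u} k G := A.subrepresentation (torsSub A c) (torsSub_le_comap A c)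

/-- The inclusion `A[c] ⟶ A`. -/
def torsι : torsRep A c ⟶ A := Rep.subtype A (torsSub A c) (torsSub_le_comap A c)

lemma torsι_apply (x : torsRep A c) : (torsι A c).hom x = (x : torsSub A c).1 := rfl

lemma torsι_injective : Function.Injective (torsι A c).hom := fun _ _ h => Subtype.ext h

lemma smul_torsι (x : torsRep A c) : c • (torsι A c).hom x = 0 :=
  (mem_torsSub_iff A c _).1 (x : torsSub A c).2

lemma torsι_comp_smul : torsι A c ≫ (c • 𝟙 A) = 0 := by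
  ext x
  exact smul_torsι A c x

/-- Elements of `A` killed by `c` lift to `A[c]`. -/
lemma exists_torsι_eq {x : A} (hx : c • x = 0) : ∃ y : torsRep A c, (torsι A c).hom y = x :=
  ⟨(⟨x, (mem_torsSub_iff A c x).2 hx⟩ : torsSub A c), rfl⟩

/-- The Kummer sequence `0 → A[c] → A -c→ A → 0` of a `c`-divisible representation. -/
def kummerSeq (hc : ∀ a : A, ∃ b : A, c • b = a) : KummerSeq (torsRep A c) A c where
  ι := torsι A c
  zero := torsι_comp_smul A c
  shortExact :=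
    Fermat.Agent.GC.Tate.shortExact_of_concrete _ (torsι_injective A c) hc
      (fun _ hx => exists_torsι_eq A c hx)

@[simp] lemma kummerSeq_ι (hc : ∀ a : A, ∃ b : A, c • b = a) :
    (kummerSeq A c hc).ι = torsι A c := rfl

instance isDiscrete_torsRep (𝒰 : LevelSystem G) [IsDiscrete 𝒰 A] : IsDiscrete 𝒰 (torsRep A c) :=
  IsDiscrete.of_injective (torsι A c) (torsι_injective A c)

end Generic

section Units

variable (K : Type*) (Ω : Type) [Field K] [Field Ω] [Algebra K Ω]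

/-- The unit underlying an element of `unitsRep K Ω`. -/
def toU (x : unitsRep K Ω) : Ωˣ := Additive.toMul (show Additive Ωˣ from x)

/-- A unit as an element of `unitsRep K Ω`. -/
def ofU (u : Ωˣ) : unitsRep K Ω := (Additive.ofMul u : Additive Ωˣ)

@[simp] lemma toU_ofU (u : Ωˣ) : toU K Ω (ofU K Ω u) = u := rfl
@[simp] lemma ofU_toU (x : unitsRep K Ω) : ofU K Ω (toU K Ω x) = x := rfl

lemma ofU_injective : Function.Injective (ofU K Ω) := fun _ _ h => congrArg (toU K Ω) h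
lemma toU_injective : Function.Injective (toU K Ω) := fun _ _ h => congrArg (ofU K Ω) h

lemma toU_zero : toU K Ω 0 = 1 := rfl
lemma toU_add (x y : unitsRep K Ω) : toU K Ω (x + y) = toU K Ω x * toU K Ω y := rfl
lemma toU_neg (x : unitsRep K Ω) : toU K Ω (-x) = (toU K Ω x)⁻¹ := rfl
lemma toU_sub (x y : unitsRep K Ω) : toU K Ω (x - y) = toU K Ω x / toU K Ω y := rfl
lemma toU_zsmul (n : ℤ) (x : unitsRep K Ω) : toU K Ω (n • x) = toU K Ω x ^ n := rfl
lemma toU_natCast_smul (n : ℕ) (x : unitsRep K Ω) : toU K Ω ((n : ℤ) • x) = toU K Ω x ^ n := by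
  rw [toU_zsmul, zpow_natCast]
lemma toU_ρ (g : Ω ≃ₐ[K] Ω) (x : unitsRep K Ω) :
    toU K Ω ((unitsRep K Ω).ρ g x) = Units.map (g : Ω →* Ω) (toU K Ω x) := rfl
lemma ofU_mul (u v : Ωˣ) : ofU K Ω (u * v) = ofU K Ω u + ofU K Ω v := rfl
lemma ofU_one : ofU K Ω 1 = 0 := rfl
lemma ofU_pow (u : Ωˣ) (n : ℕ) : ofU K Ω (u ^ n) = (n : ℤ) • ofU K Ω u := by
  apply toU_injective
  rw [toU_natCast_smul]
  rfl

lemma natCast_smul_eq_zero_iff (p : ℕ) (x : unitsRep K Ω) :
    (p : ℤ) • x = 0 ↔ toU K Ω x ^ p = 1 := by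
  rw [← toU_natCast_smul, ← toU_zero K Ω]
  exact (toU_injective K Ω).eq_iff.symm

/-- `Ω` has all `p`-th roots of units. -/
def HasRoots (Ω : Type*) [Monoid Ω] (p : ℕ) : Prop := ∀ x : Ωˣ, ∃ y : Ωˣ, y ^ p = x

lemma hasRoots_of_isSepClosed [IsSepClosed Ω] (p : ℕ) [NeZero (p : Ω)] : HasRoots Ω p := by
  intro x
  obtain ⟨z, hz⟩ := IsSepClosed.exists_pow_nat_eq (x : Ω) p
  have hp : p ≠ 0 := by
    rintro rfl
    exact NeZero.ne ((0 : ℕ) : Ω) (by simp)
  have hz0 : z ≠ 0 := by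
    rintro rfl
    rw [zero_pow hp] at hz
    exact x.ne_zero hz.symm
  exact ⟨Units.mk0 z hz0, Units.ext (by simpa using hz)⟩

lemma hasRoots_of_isAlgClosed [IsAlgClosed Ω] {p : ℕ} (hp : p ≠ 0) : HasRoots Ω p := by
  intro x
  obtain ⟨z, hz⟩ := IsAlgClosed.exists_pow_nat_eq (x : Ω) (Nat.pos_of_ne_zero hp)
  have hz0 : z ≠ 0 := by
    rintro rfl
    rw [zero_pow hp] at hz
    exact x.ne_zero hz.symm
  exact ⟨Units.mk0 z hz0, Units.ext (by simpa using hz)⟩

variable (p : ℕ)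

/-- `μ_p(Ω)` as a representation of `Gal(Ω/K)`: the `p`-torsion of `Ωˣ`. -/
abbrev muRep : Rep ℤ (Ω ≃ₐ[K] Ω) := torsRep (unitsRep K Ω) (p : ℤ)

/-- The inclusion `μ_p ⟶ Ωˣ`. -/
abbrev muι : muRep K Ω p ⟶ unitsRep K Ω := torsι (unitsRep K Ω) (p : ℤ)

lemma toU_muι_pow (y : muRep K Ω p) : toU K Ω ((muι K Ω p).hom y) ^ p = 1 :=
  (natCast_smul_eq_zero_iff K Ω p _).1 (smul_torsι _ _ y)

lemma exists_muι_eq {u : Ωˣ} (hu : u ^ p = 1) : ∃ y : muRep K Ω p, (muι K Ω p).hom y = ofU K Ω u :=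
  exists_torsι_eq _ _ ((natCast_smul_eq_zero_iff K Ω p _).2 hu)

variable {Ω p} in
/-- The Kummer sequence `0 → μ_p → Ωˣ -p→ Ωˣ → 0`. -/
def muKummer (h : HasRoots Ω p) : KummerSeq (muRep K Ω p) (unitsRep K Ω) (p : ℤ) :=
  kummerSeq (unitsRep K Ω) (p : ℤ) fun a => by
    obtain ⟨y, hy⟩ := h (toU K Ω a)
    refine ⟨ofU K Ω y, ?_⟩
    have h1 := ofU_pow K Ω y p
    rw [hy, ofU_toU] at h1
    exact h1.symm


section Cohomology

variable [IsGalois K Ω] {p}

/-- `H²(G_K, μ_p) → H²(G_K, Ωˣ)` is injective (Hilbert 90). -/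
theorem HlcMap_muι_two_eq_zero (h : HasRoots Ω p) (y : Hlc (galLevels K Ω) (muRep K Ω p) 2)
    (hy : HlcMap (galLevels K Ω) (muι K Ω p) 2 y = 0) : y = 0 := by
  obtain ⟨x, rfl⟩ := ((muKummer K h).ι_eq_zero_iff 1 y).1 hy
  rw [Subsingleton.elim x 0, map_zero]

theorem HlcMap_muι_two_injective (h : HasRoots Ω p) :
    Function.Injective (HlcMap (galLevels K Ω) (muι K Ω p) 2).hom := by
  rw [injective_iff_map_eq_zero]
  exact HlcMap_muι_two_eq_zero K Ω h

/-- The image of `Hⁿ(G_K, μ_p) → Hⁿ(G_K, Ωˣ)` is the `p`-torsion. -/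
theorem exists_HlcMap_muι_eq_iff (h : HasRoots Ω p) (n : ℕ)
    (z : Hlc (galLevels K Ω) (unitsRep K Ω) n) :
    (∃ y : Hlc (galLevels K Ω) (muRep K Ω p) n, HlcMap (galLevels K Ω) (muι K Ω p) n y = z) ↔
      (p : ℤ) • z = 0 := by
  have h1 := (muKummer K h).smul_eq_zero_iff n z
  rw [← int_smul_eq_zsmul inferInstance (p : ℤ) z]
  exact h1.symm

/-- The Kummer connecting homomorphism `H⁰(G_K, Ωˣ) → H¹(G_K, μ_p)`. -/
def kummerδ (h : HasRoots Ω p) :
    Hlc (galLevels K Ω) (unitsRep K Ω) 0 ⟶ Hlc (galLevels K Ω) (muRep K Ω p) 1 :=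
  (muKummer K h).δ (galLevels K Ω) 0

theorem kummerδ_surjective (h : HasRoots Ω p) (y : Hlc (galLevels K Ω) (muRep K Ω p) 1) :
    ∃ x, kummerδ K Ω h x = y :=
  ((muKummer K h).ι_eq_zero_iff 0 y).1 (hlc_one_unitsRep_eq_zero _)

theorem kummerδ_eq_zero_iff (h : HasRoots Ω p) (x : Hlc (galLevels K Ω) (unitsRep K Ω) 0) :
    kummerδ K Ω h x = 0 ↔ ∃ x', (p : ℤ) • x' = x := by
  rw [kummerδ, (muKummer K h).δ_eq_zero_iff 0 x]
  refine exists_congr fun x' => ?_
  rw [← int_smul_eq_zsmul inferInstance (p : ℤ) x']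
  exact Iff.rfl


/-! ### `H⁰(G_K, Ωˣ) = Kˣ` and the Kummer map `Kˣ → H¹(G_K, μ_p)` -/

omit [IsGalois K Ω] in
/-- A unit of the base field as an invariant of `Ωˣ`. -/
def baseInv : Additive Kˣ →+ (unitsRep K Ω).ρ.invariants where
  toFun a := ⟨ofU K Ω (Units.map (algebraMap K Ω : K →* Ω) (Additive.toMul a)), fun g => by
    apply toU_injective
    rw [toU_ρ, toU_ofU]
    ext
    simp⟩
  map_zero' := by
    apply Subtype.ext
    simp only [toMul_zero, map_one]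
    rfl
  map_add' a b := by
    apply Subtype.ext
    simp only [toMul_add, map_mul]
    rfl

omit [IsGalois K Ω] in
lemma toU_baseInv (a : Additive Kˣ) :
    toU K Ω (baseInv K Ω a).1 = Units.map (algebraMap K Ω : K →* Ω) (Additive.toMul a) := rfl

omit [IsGalois K Ω] in
lemma baseInv_injective : Function.Injective (baseInv K Ω) := by
  intro a b hab
  have h1 := congrArg (fun x => ((toU K Ω x.1 : Ωˣ) : Ω)) hab
  simp only [toU_baseInv, Units.coe_map, MonoidHom.coe_coe] at h1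
  exact Additive.toMul.injective (Units.ext ((algebraMap K Ω).injective h1))

lemma baseInv_surjective : Function.Surjective (baseInv K Ω) := by
  rintro ⟨x, hx⟩
  have hfix : ∀ g : Ω ≃ₐ[K] Ω, g ((toU K Ω x : Ωˣ) : Ω) = ((toU K Ω x : Ωˣ) : Ω) := by
    intro g
    have := congrArg (fun y => ((toU K Ω y : Ωˣ) : Ω)) (hx g)
    simpa [toU_ρ] using this
  obtain ⟨a, ha⟩ := (InfiniteGalois.mem_range_algebraMap_iff_fixed _).2 hfix
  have ha0 : a ≠ 0 := by
    rintro rfl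
    rw [map_zero] at ha
    exact (toU K Ω x).ne_zero ha.symm
  refine ⟨Additive.ofMul (Units.mk0 a ha0), Subtype.ext ?_⟩
  apply toU_injective
  rw [toU_baseInv]
  ext
  simpa using ha

/-- `Kˣ ≃ H⁰(G_K, Ωˣ)`. -/
def baseH0 : Additive Kˣ ≃+ Hlc (galLevels K Ω) (unitsRep K Ω) 0 :=
  (AddEquiv.ofBijective (baseInv K Ω) ⟨baseInv_injective K Ω, baseInv_surjective K Ω⟩).trans
    (Hlc0Equiv (galLevels K Ω) (unitsRep K Ω)).symm.toAddEquiv

lemma baseH0_apply (a : Additive Kˣ) :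
    baseH0 K Ω a = (Hlc0Equiv (galLevels K Ω) (unitsRep K Ω)).symm (baseInv K Ω a) := rfl

/-- The Kummer map `Kˣ → H¹(G_K, μ_p)`. -/
def kummerMap (h : HasRoots Ω p) : Additive Kˣ →+ Hlc (galLevels K Ω) (muRep K Ω p) 1 :=
  (kummerδ K Ω h).hom.toAddMonoidHom.comp (baseH0 K Ω).toAddMonoidHom

lemma kummerMap_apply (h : HasRoots Ω p) (a : Additive Kˣ) :
    kummerMap K Ω h a = kummerδ K Ω h (baseH0 K Ω a) := rfl

theorem kummerMap_surjective (h : HasRoots Ω p) : Function.Surjective (kummerMap K Ω h) := by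
  intro y
  obtain ⟨x, hx⟩ := kummerδ_surjective K Ω h y
  obtain ⟨a, rfl⟩ := (baseH0 K Ω).surjective x
  exact ⟨a, hx⟩

theorem kummerMap_eq_zero_iff (h : HasRoots Ω p) (a : Kˣ) :
    kummerMap K Ω h (Additive.ofMul a) = 0 ↔ ∃ b : Kˣ, b ^ p = a := by
  rw [kummerMap_apply, kummerδ_eq_zero_iff]
  constructor
  · rintro ⟨x', hx'⟩
    obtain ⟨b, rfl⟩ := (baseH0 K Ω).surjective x'
    refine ⟨Additive.toMul b, ?_⟩
    rw [← map_zsmul] at hx'
    have := (baseH0 K Ω).injective hx'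
    rw [← toMul_ofMul a, ← this]
    simp
  · rintro ⟨b, rfl⟩
    refine ⟨baseH0 K Ω (Additive.ofMul b), ?_⟩
    rw [← map_zsmul]
    congr 1


/-- The Kummer map on representatives: `κ(a)` is the class of `g ↦ g(α)/α` for any `α` with
`α ^ p = a`. -/
theorem kummerMap_eq (h : HasRoots Ω p) (a : Kˣ) (α : Ωˣ)
    (hα : α ^ p = Units.map (algebraMap K Ω : K →* Ω) a)
    (x : (Ω ≃ₐ[K] Ω) → muRep K Ω p)
    (hx : ∀ g, toU K Ω ((muι K Ω p).hom (x g)) = Units.map (g : Ω →* Ω) α / α) :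
    ∃ hmem : x ∈ lcCocycles₁ (galLevels K Ω) (muRep K Ω p),
      kummerMap K Ω h (Additive.ofMul a) = Hlc1π (galLevels K Ω) (muRep K Ω p) ⟨x, hmem⟩ := by
  have hyz : (muKummer K h).X.g.hom (ofU K Ω α) = (baseInv K Ω (Additive.ofMul a)).1 := by
    apply toU_injective
    rw [toU_baseInv, toMul_ofMul, ← hα]
    exact toU_natCast_smul K Ω p (ofU K Ω α)
  have hx' : (fun g => (muKummer K h).X.f.hom (x g)) =
      (groupCohomology.d₀₁ (muKummer K h).X.X₂).hom (ofU K Ω α) := by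
    funext g
    apply toU_injective
    rw [show (muKummer K h).X.f = muι K Ω p from rfl, hx g]
    rfl
  exact ⟨delta₀_mem_lcCocycles₁ (muKummer K h).shortExact (ofU K Ω α) x hx',
    Hlcδ_Hlc0 (muKummer K h).shortExact (baseInv K Ω (Additive.ofMul a)) (ofU K Ω α) hyz x hx'⟩

/-- `Kˣ/(Kˣ)^p ≃ H¹(G_K, μ_p)` (Kummer theory), multiplicative form. -/
def kummerEquiv (h : HasRoots Ω p) :
    Kˣ ⧸ (powMonoidHom p : Kˣ →* Kˣ).range ≃* Multiplicative (Hlc (galLevels K Ω) (muRep K Ω p) 1) :=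
  (QuotientGroup.quotientMulEquivOfEq (by
    ext a
    rw [MonoidHom.mem_ker, MonoidHom.mem_range]
    change _ ↔ kummerMap K Ω h (Additive.ofMul a) = 0
    rw [kummerMap_eq_zero_iff]
    rfl)).trans
  (QuotientGroup.quotientKerEquivOfSurjective (AddMonoidHom.toMultiplicativeRight (kummerMap K Ω h))
    (kummerMap_surjective K Ω h))

/-- `#H¹(G_K, μ_p) = #Kˣ/(Kˣ)^p`. -/
theorem card_hlc_one_mu (h : HasRoots Ω p) :
    Nat.card (Hlc (galLevels K Ω) (muRep K Ω p) 1) =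
      Nat.card (Kˣ ⧸ (powMonoidHom p : Kˣ →* Kˣ).range) :=
  (Nat.card_congr (kummerEquiv K Ω h).toEquiv).symm

end Cohomology

end Units

end Fermat.Agent.GC.Local.Abs
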