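/-
GATE-C / CHI-MU (helper69), generic part: the dictionary between the two models of `μ_p`.

* C5 side: `chiRep χ : Rep (ZMod p) G`, the rank one representation `k(χ)`, `k = ZMod p`
  (helper5, `Prof/CoindDualCup.lean`);
* C3 side: `muRep K Ω p = torsRep (unitsRep K Ω) p : Rep ℤ G`, the `p`-torsion of `Ωˣ`
  (helper81, `Local/Abs/Kummer.lean`); here `G = Gal(Ω/K)`.

For a primitive `p`-th root of unity `ζ ∈ Ω` and a character `χ : G →* (ZMod p)ˣ` with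
`g ζ = ζ ^ χ(g)` (the mod `p` cyclotomic character), `c ↦ ζ^c` is an additive `G`-equivariant
equivalence `chiRep χ ≃+ muRep K Ω p` (`chiMuEquiv`, `chiMuEquiv_equivariant`); by helper5's
`HlcAddEquiv` it induces `HlcChiMu : Hlc (chiRep χ) n ≃+ Hlc (muRep K Ω p) n`.
-/
import Mathlib
import Fermat.Agent.GC.Local.Abs.Kummer
import Fermat.Agent.GC.Prof.CoeffChange
import Fermat.Agent.GC.Prof.CoindDualCup

set_option autoImplicit false

open CategoryTheory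

noncomputable section

namespace Fermat.Agent.GC.Local.Abs

open Fermat.Agent.GC.Prof

variable (K : Type*) {Ω : Type} [Field K] [Field Ω] [Algebra K Ω] (p : ℕ) [Fact p.Prime]

/-- `m ↦ ζ^m`, as an additive map `ℤ → Ωˣ`. -/
def zpowAddHom (ζ : Ωˣ) : ℤ →+ unitsRep K Ω := zmultiplesHom _ (ofU K Ω ζ)

lemma zpowAddHom_apply (ζ : Ωˣ) (m : ℤ) : zpowAddHom K ζ m = ofU K Ω (ζ ^ m) := rfl

variable {p} {ζ : Ωˣ} (hζ : IsPrimitiveRoot ζ p)

omit [Fact p.Prime] in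
include hζ in
lemma zpowAddHom_p : zpowAddHom K ζ (p : ℤ) = 0 := by
  rw [zpowAddHom_apply, zpow_natCast, hζ.pow_eq_one]
  rfl

/-- `c ↦ ζ^c`, as an additive map `ZMod p → Ωˣ`. -/
def zmodPowHom : ZMod p →+ unitsRep K Ω :=
  ZMod.lift p ⟨zpowAddHom K ζ, zpowAddHom_p K hζ⟩

lemma zmodPowHom_intCast (m : ℤ) : zmodPowHom K hζ (m : ZMod p) = ofU K Ω (ζ ^ m) :=
  ZMod.lift_coe p _ m

lemma zmodPowHom_apply (c : ZMod p) : zmodPowHom K hζ c = ofU K Ω (ζ ^ c.val) := by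
  have : NeZero p := ⟨(Fact.out : p.Prime).ne_zero⟩
  conv_lhs => rw [← ZMod.natCast_zmod_val c]
  have := zmodPowHom_intCast K hζ (c.val : ℤ)
  rw [Int.cast_natCast, zpow_natCast] at this
  exact this

lemma zmodPowHom_mem (c : ZMod p) : zmodPowHom K hζ c ∈ torsSub (unitsRep K Ω) (p : ℤ) := by
  rw [mem_torsSub_iff]
  refine (natCast_smul_eq_zero_iff K Ω p _).2 ?_
  rw [zmodPowHom_apply, toU_ofU, ← pow_mul, mul_comm, pow_mul, hζ.pow_eq_one, one_pow]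

lemma zmodPowHom_injective : Function.Injective (zmodPowHom K hζ) := by
  have : NeZero p := ⟨(Fact.out : p.Prime).ne_zero⟩
  rw [injective_iff_map_eq_zero]
  intro c hc
  rw [zmodPowHom_apply] at hc
  have h1 : ζ ^ c.val = 1 := ofU_injective K Ω hc
  have h2 : p ∣ c.val := (hζ.pow_eq_one_iff_dvd _).1 h1
  have h3 : c.val = 0 := Nat.eq_zero_of_dvd_of_lt h2 (ZMod.val_lt c)
  exact (ZMod.val_eq_zero c).1 h3

lemma exists_zmodPowHom_eq (y : muRep K Ω p) :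
    ∃ c : ZMod p, zmodPowHom K hζ c = (muι K Ω p).hom y := by
  have : NeZero p := ⟨(Fact.out : p.Prime).ne_zero⟩
  have h1 : toU K Ω ((muι K Ω p).hom y) ∈ rootsOfUnity p Ω := by
    rw [mem_rootsOfUnity]
    exact toU_muι_pow K Ω p y
  rw [← hζ.zpowers_eq] at h1
  obtain ⟨m, hm⟩ := Subgroup.mem_zpowers_iff.1 h1
  refine ⟨(m : ZMod p), ?_⟩
  rw [zmodPowHom_intCast, hm, ofU_toU]

/-- **`k(χ) ≃ μ_p`** as additive groups: `c ↦ ζ^c`. -/
def chiMuEquiv (χ : (Ω ≃ₐ[K] Ω) →* (ZMod p)ˣ) :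
    (chiRep χ : Rep (ZMod p) (Ω ≃ₐ[K] Ω)) ≃+ (muRep K Ω p : Rep ℤ (Ω ≃ₐ[K] Ω)) :=
  AddEquiv.ofBijective
    ((zmodPowHom K hζ).codRestrict (torsSub (unitsRep K Ω) (p : ℤ)).toAddSubgroup
      (zmodPowHom_mem K hζ))
    ⟨fun c c' h => zmodPowHom_injective K hζ (congrArg Subtype.val h), fun y => by
      obtain ⟨c, hc⟩ := exists_zmodPowHom_eq K hζ y
      exact ⟨c, Subtype.ext hc⟩⟩

lemma muι_chiMuEquiv (χ : (Ω ≃ₐ[K] Ω) →* (ZMod p)ˣ) (c : ZMod p) :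
    (muι K Ω p).hom (chiMuEquiv K hζ χ c) = ofU K Ω (ζ ^ c.val) :=
  zmodPowHom_apply K hζ c

/-- `chiMuEquiv` is equivariant as soon as `χ` is the character of the action on `ζ`. -/
theorem chiMuEquiv_equivariant (χ : (Ω ≃ₐ[K] Ω) →* (ZMod p)ˣ)
    (hχ : ∀ g : Ω ≃ₐ[K] Ω, g (ζ : Ω) = (ζ : Ω) ^ ((χ g : ZMod p)).val)
    (g : Ω ≃ₐ[K] Ω) (c : chiRep χ) :
    chiMuEquiv K hζ χ ((chiRep χ).ρ g c) = (muRep K Ω p).ρ g (chiMuEquiv K hζ χ c) := by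
  apply torsι_injective (unitsRep K Ω) (p : ℤ)
  rw [Rep.hom_comm_apply (torsι (unitsRep K Ω) (p : ℤ)) g]
  show (muι K Ω p).hom (chiMuEquiv K hζ χ ((χ g : ZMod p) * c)) =
    (unitsRep K Ω).ρ g ((muι K Ω p).hom (chiMuEquiv K hζ χ c))
  rw [muι_chiMuEquiv, muι_chiMuEquiv]
  apply toU_injective
  rw [toU_ρ, toU_ofU, toU_ofU, map_pow]
  have hg : Units.map (g : Ω →* Ω) ζ = ζ ^ ((χ g : ZMod p)).val := by
    apply Units.ext
    rw [Units.coe_map, Units.val_pow_eq_pow_val]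
    exact hχ g
  rw [hg, ← pow_mul, ZMod.val_mul]
  exact (pow_eq_pow_mod _ hζ.pow_eq_one).symm

/-! ### Discreteness and `Hlc` -/

section Hlc

variable [IsGalois K Ω] (χ : (Ω ≃ₐ[K] Ω) →* (ZMod p)ˣ)
  (hχ : ∀ g : Ω ≃ₐ[K] Ω, g (ζ : Ω) = (ζ : Ω) ^ ((χ g : ZMod p)).val)

include hζ hχ in
/-- The cyclotomic character is trivial on an open subgroup. -/
theorem exists_level_chi_eq_one : ∃ U ∈ (galLevels K Ω).sets, ∀ g ∈ U, χ g = 1 := by
  have : NeZero p := ⟨(Fact.out : p.Prime).ne_zero⟩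
  obtain ⟨U, hU, h⟩ := exists_level_fixing (K := K) (ζ : Ω)
  refine ⟨U, hU, fun g hg => ?_⟩
  have h1 : (ζ : Ω) ^ ((χ g : ZMod p)).val = (ζ : Ω) ^ 1 := by
    rw [← hχ g, h g hg, pow_one]
  have h2 : ζ ^ ((χ g : ZMod p)).val = ζ ^ 1 := by
    apply Units.ext
    rw [Units.val_pow_eq_pow_val, Units.val_pow_eq_pow_val]
    exact h1
  have h3 : ((χ g : ZMod p)).val = 1 :=
    hζ.pow_inj (ZMod.val_lt _) (Fact.out : p.Prime).one_lt h2
  apply Units.ext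
  rw [Units.val_one, ← ZMod.natCast_zmod_val (χ g : ZMod p), h3, Nat.cast_one]

include hζ hχ in
/-- `k(χ)` is discrete for the level system of open subgroups of `Gal(Ω/K)`. -/
theorem isDiscrete_chiRep_galLevels : IsDiscrete (galLevels K Ω) (chiRep χ) :=
  isDiscrete_chiRep χ (galLevels K Ω) (exists_level_chi_eq_one K hζ χ hχ)

/-- **`Hlc(G_K, k(χ)) ≃+ Hlc(G_K, μ_p)`.** -/
def HlcChiMu [IsDiscrete (galLevels K Ω) (chiRep χ)] (n : ℕ) :
    Hlc (galLevels K Ω) (chiRep χ) n ≃+ Hlc (galLevels K Ω) (muRep K Ω p) n :=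
  HlcAddEquiv (galLevels K Ω) (chiMuEquiv K hζ χ) (chiMuEquiv_equivariant K hζ χ hχ) n

end Hlc

end Fermat.Agent.GC.Local.Abs
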