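/-
GATE-C / C3-ABS (N4-abs), helper81.  Torsion classes of the Brauer group descend to a layer.

* `natCard_nsmul_eq_zero_le`, `mem_range_of_nsmul_eq_zero` : finite cyclic groups.
* `exists_inflFin_eq_of_torsion` : finite level, tower of types `K ⊆ N ⊆ N'`.
* `ClassFormationAbove N₀` : cyclicity and order of `H²(N/K)` for all finite Galois `N ⊇ N₀`.
* `exists_inflBr_eq_of_torsion` : a class of `Hlc²(G_K, Ωˣ)` killed by `d ∣ [N₀:K]` is inflated
  from `N₀`.
* `card_torsion_hlc_two` : `#Hlc²(G_K, Ωˣ)[n] = n` for `n ∣ [N₀:K]`.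
-/
import Mathlib
import Fermat.Agent.GC.Local.Abs.BrauerTrans

set_option autoImplicit false

open CategoryTheory IntermediateField groupCohomology

noncomputable section

namespace Fermat.Agent.GC.Local.Abs

open Fermat.Agent.GC.Prof Fermat.Agent.GC.Prof.Elt

section Group

/-- In a finite cyclic group, the `m`-torsion has at most `m` elements. -/
lemma natCard_nsmul_eq_zero_le {B : Type*} [AddCommGroup B] [Finite B] [IsAddCyclic B] {m : ℕ}
    (hm : 0 < m) : Nat.card {x : B // m • x = 0} ≤ m := by
  classical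
  have := Fintype.ofFinite B
  have h := IsAddCyclic.card_nsmul_eq_zero_le (α := B) hm
  rw [Nat.card_eq_fintype_card, Fintype.card_subtype]
  exact h

/-- In a finite cyclic group, an `m`-torsion element lies in the image of any injective
homomorphism from a group of order `m`. -/
lemma mem_range_of_nsmul_eq_zero {A B : Type*} [AddCommGroup A] [AddCommGroup B] [Finite B]
    [IsAddCyclic B] (f : A →+ B) (hf : Function.Injective f) {m : ℕ} (hm0 : 0 < m)
    (hm : Nat.card A = m) (x : B) (hx : m • x = 0) : x ∈ f.range := by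
  classical
  let T : AddSubgroup B := (nsmulAddMonoidHom (α := B) m).ker
  have hT : ∀ y : B, y ∈ T ↔ m • y = 0 := fun y => Iff.rfl
  have hle : f.range ≤ T := by
    rintro _ ⟨a, rfl⟩
    rw [hT, ← map_nsmul, ← hm, card_nsmul_eq_zero', map_zero]
  have hcardT : Nat.card T ≤ m := natCard_nsmul_eq_zero_le hm0
  have hcardR : Nat.card f.range = m := by
    rw [← hm]
    exact (Nat.card_congr (Equiv.ofInjective f hf)).symm
  have : f.range = T := AddSubgroup.eq_of_le_of_card_ge hle (by rw [hcardR]; exact hcardT)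
  rw [this, hT]
  exact hx

end Group

section Fin

variable (K : Type*) (N N' : Type) [Field K] [Field N] [Field N']
  [Algebra K N] [Algebra K N'] [Algebra N N'] [IsScalarTower K N N'] [Normal K N]

/-- **Finite level.** If `H²(N'/K)` is finite cyclic, `#H²(N/K) = [N:K]` and inflation is
injective, then every class of `H²(N'/K)` killed by a divisor of `[N:K]` is inflated from `N`. -/
theorem exists_inflFin_eq_of_torsion [FiniteDimensional K N]
    [Finite (groupCohomology (Rep.ofAlgebraAutOnUnits K N') 2)]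
    [IsAddCyclic (groupCohomology (Rep.ofAlgebraAutOnUnits K N') 2)]
    (hinj : Function.Injective (inflFin K N N' 2).hom)
    (hcard : Nat.card (groupCohomology (Rep.ofAlgebraAutOnUnits K N) 2) = Module.finrank K N)
    (x : groupCohomology (Rep.ofAlgebraAutOnUnits K N') 2) (d : ℕ) (hd : d ∣ Module.finrank K N)
    (hx : d • x = 0) :
    ∃ y : groupCohomology (Rep.ofAlgebraAutOnUnits K N) 2, inflFin K N N' 2 y = x := by
  have hx' : Module.finrank K N • x = 0 := by
    obtain ⟨e, he⟩ := hd
    rw [he, mul_nsmul, hx, nsmul_zero]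
  have := mem_range_of_nsmul_eq_zero (inflFin K N N' 2).hom.toAddMonoidHom hinj
    Module.finrank_pos hcard x hx'
  obtain ⟨y, hy⟩ := this
  exact ⟨y, hy⟩

end Fin


section Lim

variable {K : Type*} {Ω : Type} [Field K] [Field Ω] [Algebra K Ω] [IsGalois K Ω]

/-- The class-formation axiom (cyclicity + order of `H²`) for all finite Galois layers above `N₀`.
For `q`-adic fields this is `InvMain.isAddCyclic_H2` + `InvMain.card_H2_eq_finrank`. -/
def ClassFormationAbove (N₀ : IntermediateField K Ω) : Prop :=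
  ∀ (N : IntermediateField K Ω) [FiniteDimensional K N] [IsGalois K N], N₀ ≤ N →
    IsAddCyclic (groupCohomology (Rep.ofAlgebraAutOnUnits K N) 2) ∧
      Nat.card (groupCohomology (Rep.ofAlgebraAutOnUnits K N) 2) = Module.finrank K N

omit [IsGalois K Ω] in
lemma ClassFormationAbove.mono {N₀ N₁ : IntermediateField K Ω} (h : ClassFormationAbove N₀)
    (hle : N₀ ≤ N₁) : ClassFormationAbove N₁ :=
  fun N _ _ hN => h N (hle.trans hN)

/-- **(N4), abstract form.** Under the class-formation axiom above the finite Galois layer `N₀`,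
every class of `H²(G_K, Ωˣ)` killed by a divisor of `[N₀:K]` is inflated from `N₀`. -/
theorem exists_inflBr_eq_of_torsion (N₀ : IntermediateField K Ω) [FiniteDimensional K N₀]
    [IsGalois K N₀] (hcf : ClassFormationAbove N₀)
    (x : Hlc (galLevels K Ω) (unitsRep K Ω) 2) (d : ℕ) (hd : d ∣ Module.finrank K N₀)
    (hx : d • x = 0) :
    ∃ y : groupCohomology (Rep.ofAlgebraAutOnUnits K N₀) 2, inflBr K N₀ Ω 2 y = x := by
  obtain ⟨N, hfd, hgal, hle, y', rfl⟩ := exists_inflBr_eq x N₀
  let _ : Algebra N₀ N := (IntermediateField.inclusion hle).toRingHom.toAlgebra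
  have : IsScalarTower K N₀ N := IsScalarTower.of_algebraMap_eq fun _ => rfl
  have : IsScalarTower N₀ N Ω := IsScalarTower.of_algebraMap_eq fun _ => rfl
  obtain ⟨hcyc, hcardN⟩ := hcf N hle
  obtain ⟨-, hcard₀⟩ := hcf N₀ le_rfl
  have : Finite (groupCohomology (Rep.ofAlgebraAutOnUnits K N) 2) :=
    Nat.finite_of_card_ne_zero (by rw [hcardN]; exact Module.finrank_pos.ne')
  have hy' : d • y' = 0 := by
    apply inflBr_two_injective K N Ω
    rw [map_nsmul, map_zero]
    exact hx
  have hinj : Function.Injective (inflFin K N₀ N 2).hom := by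
    intro a b hab
    apply inflBr_two_injective K N₀ Ω
    rw [← inflBr_inflFin_apply K N₀ N Ω 2 a, ← inflBr_inflFin_apply K N₀ N Ω 2 b]
    exact congrArg _ hab
  obtain ⟨y, rfl⟩ := exists_inflFin_eq_of_torsion K N₀ N hinj hcard₀ y' d hd hy'
  exact ⟨y, (inflBr_inflFin_apply K N₀ N Ω 2 y).symm⟩


/-- Under the class-formation axiom above `N₀`, the `n`-torsion of `H²(G_K, Ωˣ)` has exactly `n`
elements for every `n ∣ [N₀:K]`. -/
theorem card_torsion_hlc_two (N₀ : IntermediateField K Ω) [FiniteDimensional K N₀]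
    [IsGalois K N₀] (hcf : ClassFormationAbove N₀) (n : ℕ) (hn : n ∣ Module.finrank K N₀) :
    Nat.card {x : Hlc (galLevels K Ω) (unitsRep K Ω) 2 // n • x = 0} = n := by
  obtain ⟨hcyc, hcard₀⟩ := hcf N₀ le_rfl
  have hfin : Finite (groupCohomology (Rep.ofAlgebraAutOnUnits K N₀) 2) :=
    Nat.finite_of_card_ne_zero (by rw [hcard₀]; exact Module.finrank_pos.ne')
  let φ : {y : groupCohomology (Rep.ofAlgebraAutOnUnits K N₀) 2 // n • y = 0} →
      {x : Hlc (galLevels K Ω) (unitsRep K Ω) 2 // n • x = 0} :=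
    fun y => ⟨inflBr K N₀ Ω 2 y.1, by rw [← map_nsmul, y.2, map_zero]⟩
  have hφ : Function.Bijective φ := by
    constructor
    · intro a b hab
      exact Subtype.ext (inflBr_two_injective K N₀ Ω (congrArg Subtype.val hab))
    · rintro ⟨x, hx⟩
      obtain ⟨y, rfl⟩ := exists_inflBr_eq_of_torsion N₀ hcf x n hn hx
      refine ⟨⟨y, ?_⟩, rfl⟩
      apply inflBr_two_injective K N₀ Ω
      rw [map_nsmul, map_zero]
      exact hx
  rw [← Nat.card_congr (Equiv.ofBijective φ hφ)]
  have h1 := IsAddCyclic.card_nsmulAddMonoidHom_ker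
    (groupCohomology (Rep.ofAlgebraAutOnUnits K N₀) 2) n
  rw [hcard₀, Nat.gcd_eq_right hn] at h1
  exact h1

end Lim

end Fermat.Agent.GC.Local.Abs
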