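/-
GATE-C / C3-ABS, helper81.  Restriction `Hⁿ(G_K, Ωˣ) → Hⁿ(G_E, Ωˣ)` for `K ⊆ E ⊆ Ω` and its
compatibility with the inflations `inflBr`.

* `resScal K E Ω : Gal(Ω/E) →* Gal(Ω/K)`, `isContHom_resScal`,
  `res_resScal_unitsRep : Rep.res (resScal K E Ω) (unitsRep K Ω) = unitsRep E Ω` (`rfl`).
* `HlcResE K E Ω n`, `resFin K E N n` (finite level), `resN_resScal`.
* `inflBr_comp_HlcResE : inflBr K N Ω n ≫ HlcResE K E Ω n = resFin K E N n ≫ inflBr E N Ω n`.
-/
import Mathlib
import Fermat.Agent.GC.Local.Abs.BrauerTorsion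
import Fermat.Agent.GC.Prof.Res

set_option autoImplicit false

open CategoryTheory IntermediateField groupCohomology

noncomputable section

namespace Fermat.Agent.GC.Local.Abs

open Fermat.Agent.GC.Prof Fermat.Agent.GC.Prof.Elt

section Restrict

variable (K : Type*) (E Ω : Type) [Field K] [Field E] [Field Ω]
  [Algebra K E] [Algebra K Ω] [Algebra E Ω] [IsScalarTower K E Ω]

/-- `Gal(Ω/E) → Gal(Ω/K)`. -/
def resScal : (Ω ≃ₐ[E] Ω) →* (Ω ≃ₐ[K] Ω) where
  toFun σ := σ.restrictScalars K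
  map_one' := rfl
  map_mul' _ _ := rfl

@[simp] lemma resScal_apply (σ : Ω ≃ₐ[E] Ω) (x : Ω) : resScal K E Ω σ x = σ x := rfl

lemma resScal_injective : Function.Injective (resScal K E Ω) := by
  intro σ τ h
  ext x
  exact congrArg (fun g : Ω ≃ₐ[K] Ω => g x) h

/-- The units of `Ω` as a `Gal(Ω/E)`-module are the restriction of the `Gal(Ω/K)`-module. -/
lemma res_resScal_unitsRep : Rep.res (resScal K E Ω) (unitsRep K Ω) = unitsRep E Ω := rfl

variable [IsGalois K Ω] [IsGalois E Ω]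

/-- `Gal(Ω/E) → Gal(Ω/K)` is continuous for the Krull level systems. -/
lemma isContHom_resScal :
    IsContHom (galLevels E Ω) (galLevels K Ω) (resScal K E Ω) := by
  rintro V ⟨F, hF, rfl⟩
  obtain ⟨α, rfl⟩ := exists_adjoin_simple_eq F
  have hα : IsIntegral E α := (Algebra.IsIntegral.isIntegral (R := K) α).tower_top
  have : FiniteDimensional E E⟮α⟯ := IntermediateField.adjoin.finiteDimensional hα
  refine ⟨E⟮α⟯.fixingSubgroup, fixingSubgroup_mem_galLevels E⟮α⟯, fun σ hσ => ?_⟩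
  rw [Subgroup.mem_comap, IntermediateField.mem_fixingSubgroup_iff]
  intro x hx
  rw [IntermediateField.mem_fixingSubgroup_iff] at hσ
  refine algEquiv_apply_eq_of_mem_adjoin (resScal K E Ω σ) {α} ?_ hx
  rintro a rfl
  exact hσ a (IntermediateField.mem_adjoin_simple_self E a)

/-- Restriction `Hⁿ(G_K, Ωˣ) → Hⁿ(G_E, Ωˣ)`. -/
def HlcResE (n : ℕ) :
    Hlc (galLevels K Ω) (unitsRep K Ω) n ⟶ Hlc (galLevels E Ω) (unitsRep E Ω) n :=
  HlcPull (isContHom_resScal K E Ω) (A := unitsRep K Ω) (B := unitsRep E Ω) (𝟙 (unitsRep E Ω)) n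


end Restrict

section Compat

variable (K : Type*) (E N Ω : Type) [Field K] [Field E] [Field N] [Field Ω]
  [Algebra K E] [Algebra K N] [Algebra K Ω] [Algebra E N] [Algebra E Ω] [Algebra N Ω]
  [IsScalarTower K E N] [IsScalarTower K E Ω] [IsScalarTower K N Ω] [IsScalarTower E N Ω]
  [Normal K N] [Normal E N]

lemma resN_resScal (σ : Ω ≃ₐ[E] Ω) :
    resN K N Ω (resScal K E Ω σ) = resScal K E N (resN E N Ω σ) := by
  ext x
  apply (algebraMap N Ω).injective
  rw [resN_commutes, resScal_apply, resScal_apply, resN_commutes]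

/-- Finite-level restriction `Hⁿ(Gal(N/K), Nˣ) → Hⁿ(Gal(N/E), Nˣ)`. -/
def resFin (n : ℕ) : groupCohomology (Rep.ofAlgebraAutOnUnits K N) n ⟶
    groupCohomology (Rep.ofAlgebraAutOnUnits E N) n :=
  groupCohomology.map (A := Rep.ofAlgebraAutOnUnits K N) (B := Rep.ofAlgebraAutOnUnits E N)
    (resScal K E N) (𝟙 (Rep.ofAlgebraAutOnUnits E N)) n

variable [IsGalois K Ω] [IsGalois E Ω] [FiniteDimensional K N] [FiniteDimensional E N]

lemma inflBrChain_comp_lcPull :
    inflBrChain K N Ω ≫ lcPull (isContHom_resScal K E Ω) (A := unitsRep K Ω) (B := unitsRep E Ω)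
        (𝟙 (unitsRep E Ω)) =
      cochainsMap (A := Rep.ofAlgebraAutOnUnits K N) (B := Rep.ofAlgebraAutOnUnits E N)
        (resScal K E N) (𝟙 (Rep.ofAlgebraAutOnUnits E N)) ≫ inflBrChain E N Ω := by
  ext n f : 3
  apply Subtype.ext
  funext g
  show (unitsIncl K N Ω).hom (f fun i => resN K N Ω (resScal K E Ω (g i))) =
    (unitsIncl E N Ω).hom (f fun i => resScal K E N (resN E N Ω (g i)))
  simp only [resN_resScal]
  rfl

/-- **Restriction is compatible with inflation.** -/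
theorem inflBr_comp_HlcResE (n : ℕ) :
    inflBr K N Ω n ≫ HlcResE K E Ω n = resFin K E N n ≫ inflBr E N Ω n := by
  have h1 := HomologicalComplex.homologyMap_comp (inflBrChain K N Ω)
    (lcPull (isContHom_resScal K E Ω) (A := unitsRep K Ω) (B := unitsRep E Ω) (𝟙 (unitsRep E Ω))) n
  have h2 := HomologicalComplex.homologyMap_comp
    (cochainsMap (A := Rep.ofAlgebraAutOnUnits K N) (B := Rep.ofAlgebraAutOnUnits E N)
      (resScal K E N) (𝟙 (Rep.ofAlgebraAutOnUnits E N))) (inflBrChain E N Ω) n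
  rw [inflBrChain_comp_lcPull] at h1
  exact h1.symm.trans h2

theorem HlcResE_inflBr_apply (n : ℕ) (y : groupCohomology (Rep.ofAlgebraAutOnUnits K N) n) :
    HlcResE K E Ω n (inflBr K N Ω n y) = inflBr E N Ω n (resFin K E N n y) :=
  congr($(inflBr_comp_HlcResE K E N Ω n) y)

end Compat

end Fermat.Agent.GC.Local.Abs
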