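import Mathlib
import Fermat.Agent.GC.Local.Abs.Restrict
import Fermat.Agent.GC.Prof.FiniteLevelC
import Fermat.Agent.GC.Prof.LowMap

/-!
# GATE-C / local: `inflBr` on explicit cocycles

`inflBr K N Ω n : Hⁿ(Gal(N/K), Nˣ) ⟶ Hlcⁿ(Gal(Ω/K), Ωˣ)` computed on representatives:

* `inflBr_π_cocyclesMk` : all degrees, on `π (cocyclesMk f hf)`;
* `inflBr_H2π` : `inflBr (H2π z) = Hlc2π ⟨inflCoc₂ z, _⟩` with
  `inflCoc₂ z (g, h) = ι (z (g|_N, h|_N))`;
* `inflBr_H1π` : the same in degree one;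
* `HlcResE_Hlc2π`, `HlcResE_Hlc1π` : restriction to an intermediate field on representatives.
-/

set_option autoImplicit false

open CategoryTheory IntermediateField groupCohomology

noncomputable section

namespace Fermat.Agent.GC.Local.Abs

open Fermat.Agent.GC.Prof Fermat.Agent.GC.Prof.Elt

section Gen

universe u
variable {k G : Type u} [CommRing k] [Group G] (A : Rep k G)

/-- the cocycle condition in complex form, degree 2 -/
lemma d_cochainsIso₂_inv (x : cocycles₂ A) :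
    inhomogeneousCochains.d A 2 ((cochainsIso₂ A).inv x) = 0 := by
  rw [← LinearMap.comp_apply, ← ModuleCat.hom_comp, ← inhomogeneousCochains.d_def,
    eq_d₂₃_comp_inv, ModuleCat.hom_comp, LinearMap.comp_apply, cocycles₂.d₂₃_apply x,
    map_zero]

/-- the cocycle condition in complex form, degree 1 -/
lemma d_cochainsIso₁_inv (x : cocycles₁ A) :
    inhomogeneousCochains.d A 1 ((cochainsIso₁ A).inv x) = 0 := by
  rw [← LinearMap.comp_apply, ← ModuleCat.hom_comp, ← inhomogeneousCochains.d_def,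
    eq_d₁₂_comp_inv, ModuleCat.hom_comp, LinearMap.comp_apply, cocycles₁.d₁₂_apply x,
    map_zero]

lemma H2π_eq_π_cocyclesMk (x : cocycles₂ A) :
    H2π A x = groupCohomology.π A 2 (cocyclesMk ((cochainsIso₂ A).inv x)
      (d_cochainsIso₂_inv A x)) := by
  have h2 := cocyclesMk₂_eq A x
  change groupCohomology.π A 2 ((isoCocycles₂ A).inv x) = _
  rw [← h2]

lemma H1π_eq_π_cocyclesMk (x : cocycles₁ A) :
    H1π A x = groupCohomology.π A 1 (cocyclesMk ((cochainsIso₁ A).inv x)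
      (d_cochainsIso₁_inv A x)) := by
  have h2 := cocyclesMk₁_eq A x
  change groupCohomology.π A 1 ((isoCocycles₁ A).inv x) = _
  rw [← h2]

end Gen

section Low

variable (K : Type*) (N Ω : Type) [Field K] [Field N] [Field Ω] [Algebra K N] [Algebra N Ω]
  [Algebra K Ω] [IsScalarTower K N Ω] [Normal K N] [IsGalois K Ω] [FiniteDimensional K N]

/-- the inflation of a finite-level cocycle is a level-constant cocycle -/
lemma lcD_inflBrLin_eq_zero {n : ℕ} (f : (Fin n → (N ≃ₐ[K] N)) → Rep.ofAlgebraAutOnUnits K N)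
    (hf : inhomogeneousCochains.d (Rep.ofAlgebraAutOnUnits K N) n f = 0) :
    lcD (galLevels K Ω) (unitsRep K Ω) n (inflBrLin K N Ω n f) = 0 := by
  have hcomm := congr($((inflBrChain K N Ω).comm n (n + 1)) f)
  rw [lcCochains_d, inhomogeneousCochains.d_def] at hcomm
  simp only [inflBrChain_f] at hcomm
  have h2 : inflBrLin K N Ω (n + 1) (inhomogeneousCochains.d (Rep.ofAlgebraAutOnUnits K N) n f) =
      lcD (galLevels K Ω) (unitsRep K Ω) n (inflBrLin K N Ω n f) := hcomm.symm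
  rw [← h2, hf, map_zero]

/-- **`inflBr` on representatives** (all degrees). -/
theorem inflBr_π_cocyclesMk {n : ℕ} (f : (Fin n → (N ≃ₐ[K] N)) → Rep.ofAlgebraAutOnUnits K N)
    (hf : inhomogeneousCochains.d (Rep.ofAlgebraAutOnUnits K N) n f = 0) :
    inflBr K N Ω n (groupCohomology.π _ n (cocyclesMk f hf)) =
      HlcMk (galLevels K Ω) (unitsRep K Ω) (inflBrLin K N Ω n f)
        (lcD_inflBrLin_eq_zero K N Ω f hf) := by
  rw [← hMk_inhomogeneousCochains_eq_π, ← hMk_lcCochains_eq_HlcMk]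
  exact homologyMap_hMk (inflBrChain K N Ω) n _

/-! ### degree 2 -/

/-- the inflated 2-cochain `(g, h) ↦ ι (z (g|_N, h|_N))` -/
def inflCoc₂ (z : (N ≃ₐ[K] N) × (N ≃ₐ[K] N) → Rep.ofAlgebraAutOnUnits K N) :
    (Ω ≃ₐ[K] Ω) × (Ω ≃ₐ[K] Ω) → unitsRep K Ω :=
  fun p => (unitsIncl K N Ω).hom (z (resN K N Ω p.1, resN K N Ω p.2))

omit [IsGalois K Ω] [FiniteDimensional K N] in
lemma inflCoc₂_apply (z : (N ≃ₐ[K] N) × (N ≃ₐ[K] N) → Rep.ofAlgebraAutOnUnits K N)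
    (g h : Ω ≃ₐ[K] Ω) :
    inflCoc₂ K N Ω z (g, h) = Additive.ofMul
      (Units.map (algebraMap N Ω : N →* Ω) (z (resN K N Ω g, resN K N Ω h)).toMul) := rfl

lemma lcEquiv₂_inflBrLin (z : (N ≃ₐ[K] N) × (N ≃ₐ[K] N) → Rep.ofAlgebraAutOnUnits K N) :
    ((lcEquiv₂ (galLevels K Ω) (unitsRep K Ω)
      (inflBrLin K N Ω 2 ((cochainsIso₂ (Rep.ofAlgebraAutOnUnits K N)).inv z)) :
        lcCochains₂ (galLevels K Ω) (unitsRep K Ω)) :
        (Ω ≃ₐ[K] Ω) × (Ω ≃ₐ[K] Ω) → unitsRep K Ω) = inflCoc₂ K N Ω z := by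
  funext p
  rfl

lemma inflCoc₂_mem (z : cocycles₂ (Rep.ofAlgebraAutOnUnits K N)) :
    inflCoc₂ K N Ω z ∈ lcCocycles₂ (galLevels K Ω) (unitsRep K Ω) := by
  have h1 := lcD_inflBrLin_eq_zero K N Ω _ (d_cochainsIso₂_inv _ z)
  have h2 := (lcD_two_eq_zero_iff (galLevels K Ω) (unitsRep K Ω) _).1 h1
  rw [lcEquiv₂_inflBrLin] at h2
  refine ⟨h2, ?_⟩
  rw [← lcEquiv₂_inflBrLin]
  exact (lcEquiv₂ (galLevels K Ω) (unitsRep K Ω) _).2

/-- **`inflBr` on explicit 2-cocycles**: the class of `z` inflates to the class of the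
level-constant cocycle `(g, h) ↦ ι (z (g|_N, h|_N))`. -/
theorem inflBr_H2π (z : cocycles₂ (Rep.ofAlgebraAutOnUnits K N)) :
    inflBr K N Ω 2 (H2π _ z) =
      Hlc2π (galLevels K Ω) (unitsRep K Ω) ⟨inflCoc₂ K N Ω z, inflCoc₂_mem K N Ω z⟩ := by
  rw [H2π_eq_π_cocyclesMk, inflBr_π_cocyclesMk, Hlc2π_apply]
  congr 1

/-- vanishing criterion at finite level, from the profinite level (uses injectivity of
inflation = Hilbert 90) -/
theorem H2π_eq_zero_of_Hlc2π_inflCoc₂ (z : cocycles₂ (Rep.ofAlgebraAutOnUnits K N))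
    (h : Hlc2π (galLevels K Ω) (unitsRep K Ω) ⟨inflCoc₂ K N Ω z, inflCoc₂_mem K N Ω z⟩ = 0) :
    H2π _ z = 0 := by
  apply inflBr_two_injective K N Ω
  rw [inflBr_H2π, h, map_zero]

/-! ### degree 1 -/

/-- the inflated 1-cochain `g ↦ ι (z (g|_N))` -/
def inflCoc₁ (z : (N ≃ₐ[K] N) → Rep.ofAlgebraAutOnUnits K N) :
    (Ω ≃ₐ[K] Ω) → unitsRep K Ω :=
  fun g => (unitsIncl K N Ω).hom (z (resN K N Ω g))

omit [IsGalois K Ω] [FiniteDimensional K N] in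
lemma inflCoc₁_apply (z : (N ≃ₐ[K] N) → Rep.ofAlgebraAutOnUnits K N) (g : Ω ≃ₐ[K] Ω) :
    inflCoc₁ K N Ω z g = Additive.ofMul
      (Units.map (algebraMap N Ω : N →* Ω) (z (resN K N Ω g)).toMul) := rfl

lemma lcEquiv₁_inflBrLin (z : (N ≃ₐ[K] N) → Rep.ofAlgebraAutOnUnits K N) :
    ((lcEquiv₁ (galLevels K Ω) (unitsRep K Ω)
      (inflBrLin K N Ω 1 ((cochainsIso₁ (Rep.ofAlgebraAutOnUnits K N)).inv z)) :
        lcCochains₁ (galLevels K Ω) (unitsRep K Ω)) :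
        (Ω ≃ₐ[K] Ω) → unitsRep K Ω) = inflCoc₁ K N Ω z := by
  funext p
  rfl

lemma inflCoc₁_mem (z : cocycles₁ (Rep.ofAlgebraAutOnUnits K N)) :
    inflCoc₁ K N Ω z ∈ lcCocycles₁ (galLevels K Ω) (unitsRep K Ω) := by
  have h1 := lcD_inflBrLin_eq_zero K N Ω _ (d_cochainsIso₁_inv _ z)
  have h2 := (lcD_one_eq_zero_iff (galLevels K Ω) (unitsRep K Ω) _).1 h1
  rw [lcEquiv₁_inflBrLin] at h2
  refine ⟨h2, ?_⟩
  rw [← lcEquiv₁_inflBrLin]
  exact (lcEquiv₁ (galLevels K Ω) (unitsRep K Ω) _).2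

/-- **`inflBr` on explicit 1-cocycles**. -/
theorem inflBr_H1π (z : cocycles₁ (Rep.ofAlgebraAutOnUnits K N)) :
    inflBr K N Ω 1 (H1π _ z) =
      Hlc1π (galLevels K Ω) (unitsRep K Ω) ⟨inflCoc₁ K N Ω z, inflCoc₁_mem K N Ω z⟩ := by
  rw [H1π_eq_π_cocyclesMk, inflBr_π_cocyclesMk, Hlc1π_apply]
  congr 1

end Low

end Fermat.Agent.GC.Local.Abs

namespace Fermat.Agent.GC.Local.Abs

open Fermat.Agent.GC.Prof Fermat.Agent.GC.Prof.Elt

section ResLow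

variable (K : Type*) (E Ω : Type) [Field K] [Field E] [Field Ω]
  [Algebra K E] [Algebra K Ω] [Algebra E Ω] [IsScalarTower K E Ω] [IsGalois K Ω] [IsGalois E Ω]

lemma resScal_mem_lcCocycles₂ (z : lcCocycles₂ (galLevels K Ω) (unitsRep K Ω)) :
    (fun p : (Ω ≃ₐ[E] Ω) × (Ω ≃ₐ[E] Ω) =>
      ((z : (Ω ≃ₐ[K] Ω) × (Ω ≃ₐ[K] Ω) → unitsRep K Ω)
        (resScal K E Ω p.1, resScal K E Ω p.2) : unitsRep E Ω)) ∈
      lcCocycles₂ (galLevels E Ω) (unitsRep E Ω) :=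
  pull_mem_lcCocycles₂ (isContHom_resScal K E Ω) (A := unitsRep K Ω) (B := unitsRep E Ω)
    (𝟙 (unitsRep E Ω)) z

/-- **Restriction on explicit 2-cocycles.** -/
theorem HlcResE_Hlc2π (z : lcCocycles₂ (galLevels K Ω) (unitsRep K Ω)) :
    HlcResE K E Ω 2 (Hlc2π (galLevels K Ω) (unitsRep K Ω) z) =
      Hlc2π (galLevels E Ω) (unitsRep E Ω)
        ⟨fun p => (z : (Ω ≃ₐ[K] Ω) × (Ω ≃ₐ[K] Ω) → unitsRep K Ω)
          (resScal K E Ω p.1, resScal K E Ω p.2), resScal_mem_lcCocycles₂ K E Ω z⟩ :=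
  HlcPull_Hlc2π (isContHom_resScal K E Ω) (A := unitsRep K Ω) (B := unitsRep E Ω)
    (𝟙 (unitsRep E Ω)) z

lemma resScal_mem_lcCocycles₁ (z : lcCocycles₁ (galLevels K Ω) (unitsRep K Ω)) :
    (fun g : (Ω ≃ₐ[E] Ω) =>
      ((z : (Ω ≃ₐ[K] Ω) → unitsRep K Ω) (resScal K E Ω g) : unitsRep E Ω)) ∈
      lcCocycles₁ (galLevels E Ω) (unitsRep E Ω) :=
  pull_mem_lcCocycles₁ (isContHom_resScal K E Ω) (A := unitsRep K Ω) (B := unitsRep E Ω)
    (𝟙 (unitsRep E Ω)) z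

/-- **Restriction on explicit 1-cocycles.** -/
theorem HlcResE_Hlc1π (z : lcCocycles₁ (galLevels K Ω) (unitsRep K Ω)) :
    HlcResE K E Ω 1 (Hlc1π (galLevels K Ω) (unitsRep K Ω) z) =
      Hlc1π (galLevels E Ω) (unitsRep E Ω)
        ⟨fun g => (z : (Ω ≃ₐ[K] Ω) → unitsRep K Ω) (resScal K E Ω g),
          resScal_mem_lcCocycles₁ K E Ω z⟩ :=
  HlcPull_Hlc1π (isContHom_resScal K E Ω) (A := unitsRep K Ω) (B := unitsRep E Ω)
    (𝟙 (unitsRep E Ω)) z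

end ResLow

end Fermat.Agent.GC.Local.Abs
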