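/-
GATE-C / C3-ABS (COR-INJ core), helper81.  Restriction `Br(K) → Br(E₀)` for `E₀/K` finite is
surjective with kernel the `[E₀:K]`-torsion, under the class-formation cardinalities.

* `ker_eq_and_surjective_of_card` : counting lemma for cyclic groups.
* `resFin_two_facts` : finite level (tower of types `K ⊆ E ⊆ N ⊆ Ω`).
* `RelClassFormation E₀` : `#H²(Gal(N/E₀), Nˣ) = [N:E₀]` for all finite Galois `N/K` above `E₀`.
* `HlcResE_eq_zero_of_nsmul`, `HlcResE_two_surjective` : the limit statements.
The hypothesis `hker` (`Res x = 0 → [E₀:K] • x = 0`) is `cor ∘ res = index`; it is discharged in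
`CorInj.lean`.
-/
import Mathlib
import Fermat.Agent.GC.Local.Abs.Restrict

set_option autoImplicit false

open CategoryTheory IntermediateField groupCohomology

noncomputable section

namespace Fermat.Agent.GC.Local.Abs

open Fermat.Agent.GC.Prof Fermat.Agent.GC.Prof.Elt

section Group

/-- Counting lemma: `r : A → B` between finite groups, `A` cyclic of order `n * b`, `#B = b`,
`ker r` killed by `n`.  Then `ker r = A[n]` and `r` is surjective. -/
lemma ker_eq_and_surjective_of_card {A B : Type*} [AddCommGroup A] [AddCommGroup B] [Finite A]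
    [Finite B] [IsAddCyclic A] (r : A →+ B) {n b : ℕ} (hn : 0 < n) (hA : Nat.card A = n * b)
    (hB : Nat.card B = b) (hker : ∀ y : A, r y = 0 → n • y = 0) :
    (∀ y : A, n • y = 0 → r y = 0) ∧ Function.Surjective r := by
  classical
  have hb : 0 < b := hB ▸ Nat.card_pos
  let T : AddSubgroup A := (nsmulAddMonoidHom (α := A) n).ker
  have hT : ∀ y : A, y ∈ T ↔ n • y = 0 := fun y => Iff.rfl
  have hle : r.ker ≤ T := fun y hy => (hT y).2 (hker y hy)
  have hcardT : Nat.card T = n := by
    have := IsAddCyclic.card_nsmulAddMonoidHom_ker A n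
    rw [hA, Nat.gcd_eq_right (Dvd.intro b rfl)] at this
    exact this
  have h1 : Nat.card r.ker * Nat.card r.range = n * b := by
    rw [← hA, ← AddSubgroup.index_ker, mul_comm]
    exact r.ker.index_mul_card
  have h2 : Nat.card r.ker ≤ n := hcardT ▸ Nat.card_mono (Set.toFinite _) hle
  have h3 : Nat.card r.range ≤ b := hB ▸ Nat.card_le_card_of_injective _ Subtype.val_injective
  have h4 : Nat.card r.ker = n := by
    by_contra hne
    have hlt : Nat.card r.ker < n := lt_of_le_of_ne h2 hne
    have : Nat.card r.ker * Nat.card r.range < n * b :=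
      calc Nat.card r.ker * Nat.card r.range ≤ Nat.card r.ker * b := Nat.mul_le_mul_left _ h3
        _ < n * b := Nat.mul_lt_mul_of_pos_right hlt hb
    omega
  have h5 : Nat.card r.range = b := by
    rw [h4] at h1
    exact Nat.eq_of_mul_eq_mul_left hn h1
  constructor
  · intro y hy
    have : r.ker = T := AddSubgroup.eq_of_le_of_card_ge hle (by rw [hcardT, h4])
    have hy' : y ∈ r.ker := this ▸ (hT y).2 hy
    exact hy'
  · rw [← AddMonoidHom.range_eq_top]
    exact (AddSubgroup.card_eq_iff_eq_top r.range).1 (by rw [h5, hB])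

end Group


section FL

variable (K : Type*) (E N Ω : Type) [Field K] [Field E] [Field N] [Field Ω]
  [Algebra K E] [Algebra K N] [Algebra K Ω] [Algebra E N] [Algebra E Ω] [Algebra N Ω]
  [IsScalarTower K E N] [IsScalarTower K E Ω] [IsScalarTower K N Ω] [IsScalarTower E N Ω]
  [Normal K N] [Normal E N] [IsGalois K Ω] [IsGalois E Ω]
  [FiniteDimensional K N] [FiniteDimensional E N] [FiniteDimensional K E]

/-- **Finite level.**  For `K ⊆ E ⊆ N` with `N/K` finite Galois: if `H²(N/K)` is cyclic of order
`[N:K]`, `#H²(N/E) = [N:E]`, and restriction to `E` in the limit only kills `[E:K]`-torsion, then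
`res : H²(N/K) → H²(N/E)` is surjective with kernel the `[E:K]`-torsion. -/
theorem resFin_two_facts
    (hcyc : IsAddCyclic (groupCohomology (Rep.ofAlgebraAutOnUnits K N) 2))
    (hcardK : Nat.card (groupCohomology (Rep.ofAlgebraAutOnUnits K N) 2) = Module.finrank K N)
    (hcardE : Nat.card (groupCohomology (Rep.ofAlgebraAutOnUnits E N) 2) = Module.finrank E N)
    (hker : ∀ x : Hlc (galLevels K Ω) (unitsRep K Ω) 2,
      HlcResE K E Ω 2 x = 0 → Module.finrank K E • x = 0) :
    (∀ y : groupCohomology (Rep.ofAlgebraAutOnUnits K N) 2,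
        Module.finrank K E • y = 0 → resFin K E N 2 y = 0) ∧
      Function.Surjective (resFin K E N 2).hom := by
  have hfinK : Finite (groupCohomology (Rep.ofAlgebraAutOnUnits K N) 2) :=
    Nat.finite_of_card_ne_zero (by rw [hcardK]; exact Module.finrank_pos.ne')
  have hfinE : Finite (groupCohomology (Rep.ofAlgebraAutOnUnits E N) 2) :=
    Nat.finite_of_card_ne_zero (by rw [hcardE]; exact Module.finrank_pos.ne')
  have hA : Nat.card (groupCohomology (Rep.ofAlgebraAutOnUnits K N) 2) =
      Module.finrank K E * Module.finrank E N := by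
    rw [hcardK, Module.finrank_mul_finrank]
  refine ker_eq_and_surjective_of_card (resFin K E N 2).hom.toAddMonoidHom
    Module.finrank_pos hA hcardE ?_
  intro y hy
  have hy' : resFin K E N 2 y = 0 := hy
  have h1 : HlcResE K E Ω 2 (inflBr K N Ω 2 y) = 0 := by
    rw [HlcResE_inflBr_apply, hy', map_zero]
  have h2 := hker _ h1
  rw [← map_nsmul] at h2
  exact inflBr_two_eq_zero K N Ω _ h2

end FL


section Lim

variable {K : Type*} {Ω : Type} [Field K] [Field Ω] [Algebra K Ω] [IsGalois K Ω]
  (E₀ : IntermediateField K Ω)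

/-- The order of `H²(Gal(N/E₀), Nˣ)` is `[N:E₀]` for all finite Galois layers `N/K` containing
`E₀` (for `q`-adic fields: `local_card_H2_eq_finrank`). -/
def RelClassFormation : Prop :=
  ∀ (N : IntermediateField K Ω) [FiniteDimensional K N] [IsGalois K N] (h : E₀ ≤ N),
    letI : Algebra E₀ N := (IntermediateField.inclusion h).toRingHom.toAlgebra
    Nat.card (groupCohomology (Rep.ofAlgebraAutOnUnits E₀ N) 2) = Module.finrank E₀ N

variable [FiniteDimensional K E₀]

/-- Classes killed by `[E₀:K]` restrict to zero over `E₀`. -/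
theorem HlcResE_eq_zero_of_nsmul (hK : ClassFormationAbove E₀) (hE : RelClassFormation E₀)
    (hker : ∀ x : Hlc (galLevels K Ω) (unitsRep K Ω) 2,
      HlcResE K E₀ Ω 2 x = 0 → Module.finrank K E₀ • x = 0)
    (x : Hlc (galLevels K Ω) (unitsRep K Ω) 2) (hx : Module.finrank K E₀ • x = 0) :
    HlcResE K E₀ Ω 2 x = 0 := by
  obtain ⟨N, hfd, hgal, hle, y, rfl⟩ := exists_inflBr_eq x E₀
  let _ : Algebra E₀ N := (IntermediateField.inclusion hle).toRingHom.toAlgebra
  have : IsScalarTower K E₀ N := IsScalarTower.of_algebraMap_eq fun _ => rfl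
  have : IsScalarTower E₀ N Ω := IsScalarTower.of_algebraMap_eq fun _ => rfl
  have : Normal E₀ N := Normal.tower_top_of_normal K E₀ N
  have : FiniteDimensional E₀ N := Module.Finite.of_restrictScalars_finite K E₀ N
  obtain ⟨hcyc, hcardK⟩ := hK N hle
  have hcardE := hE N hle
  obtain ⟨h1, -⟩ := resFin_two_facts K E₀ N Ω hcyc hcardK hcardE hker
  rw [HlcResE_inflBr_apply, h1 y, map_zero]
  apply inflBr_two_injective K N Ω
  rw [map_nsmul, map_zero]
  exact hx


/-- Restriction `H²(G_K, Ωˣ) → H²(G_{E₀}, Ωˣ)` is surjective. -/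
theorem HlcResE_two_surjective (hK : ClassFormationAbove E₀) (hE : RelClassFormation E₀)
    (hker : ∀ x : Hlc (galLevels K Ω) (unitsRep K Ω) 2,
      HlcResE K E₀ Ω 2 x = 0 → Module.finrank K E₀ • x = 0)
    (y : Hlc (galLevels E₀ Ω) (unitsRep E₀ Ω) 2) :
    ∃ x : Hlc (galLevels K Ω) (unitsRep K Ω) 2, HlcResE K E₀ Ω 2 x = y := by
  obtain ⟨N', hfd', hgal', -, y', rfl⟩ := exists_inflBr_eq y (⊥ : IntermediateField E₀ Ω)
  -- a finite Galois layer over `K` containing `N'`
  have hfdF : FiniteDimensional K (N'.restrictScalars K) := by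
    have : Module.Finite K N' := Module.Finite.trans E₀ N'
    exact this
  let N : IntermediateField K Ω := IntermediateField.normalClosure K (N'.restrictScalars K) Ω
  have hfd : FiniteDimensional K N := normalClosure.is_finiteDimensional K _ Ω
  have hn : Normal K N := normalClosure.normal K _ Ω
  have hgal : IsGalois K N := ⟨⟩
  have hN'N : ∀ x : Ω, x ∈ N' → x ∈ N := fun x hx =>
    IntermediateField.le_normalClosure (N'.restrictScalars K) hx
  have hle : E₀ ≤ N := fun x hx => hN'N x (N'.algebraMap_mem ⟨x, hx⟩)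
  let _ : Algebra E₀ N := (IntermediateField.inclusion hle).toRingHom.toAlgebra
  have : IsScalarTower K E₀ N := IsScalarTower.of_algebraMap_eq fun _ => rfl
  have : IsScalarTower E₀ N Ω := IsScalarTower.of_algebraMap_eq fun _ => rfl
  have : Normal E₀ N := Normal.tower_top_of_normal K E₀ N
  have : FiniteDimensional E₀ N := Module.Finite.of_restrictScalars_finite K E₀ N
  let ι : N' →+* N :=
    { toFun := fun x => ⟨x.1, hN'N x.1 x.2⟩
      map_one' := rfl
      map_mul' := fun _ _ => rfl
      map_zero' := rfl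
      map_add' := fun _ _ => rfl }
  let _ : Algebra N' N := ι.toAlgebra
  have : IsScalarTower E₀ N' N := IsScalarTower.of_algebraMap_eq fun _ => rfl
  have : IsScalarTower N' N Ω := IsScalarTower.of_algebraMap_eq fun _ => rfl
  obtain ⟨hcyc, hcardK⟩ := hK N hle
  have hcardE := hE N hle
  obtain ⟨-, h2⟩ := resFin_two_facts K E₀ N Ω hcyc hcardK hcardE hker
  obtain ⟨w, hw⟩ := h2 (inflFin E₀ N' N 2 y')
  refine ⟨inflBr K N Ω 2 w, ?_⟩
  rw [HlcResE_inflBr_apply]
  have hw' : resFin K E₀ N 2 w = inflFin E₀ N' N 2 y' := hw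
  rw [hw', inflBr_inflFin_apply]

end Lim

end Fermat.Agent.GC.Local.Abs
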