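/-
GATE-C / C3-ABS (COR-INJ), helper81.  Corestriction `H²(E₀.fixingSubgroup, Ωˣ) → H²(G_K, Ωˣ)`
(helper20's `HlcCor`) is injective, for `E₀/K` finite (not necessarily Galois), under the
class-formation cardinalities; unconditional for `q`-adic fields.

* `isOpenSub_fixingSubgroup`, discreteness instances, `toSubForm` (bridge `Gal(Ω/E₀)` ↔ subgroup,
  via helper69's `isContHom_fixingSubgroupEquiv` + `HlcRes_bijective_of_mulEquiv`), `HlcResS_eq`.
* `finrank_nsmul_eq_zero_of_HlcResE_eq_zero` : `Res x = 0 → [E₀:K] • x = 0` (from `cor ∘ res`).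
* `HlcResE_two_surjective'`, `HlcResE_two_eq_zero_iff`, `HlcCor_two_injective`.
* `padic_classFormationAbove`, `padic_relClassFormation`, `padic_HlcCor_two_injective`,
  `padic_HlcResE_two_surjective`, `padic_HlcResE_two_eq_zero_iff`.
-/
import Mathlib
import Fermat.Agent.GC.Local.Abs.CorInjCore
import Fermat.Agent.GC.Prof.GroupIso
import Fermat.Agent.GC.Prof.Cor
import Fermat.Agent.GC.Places.Levels
import Fermat.Agent.GC.Local.Unram.LowerData

set_option autoImplicit false

open CategoryTheory IntermediateField groupCohomology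

noncomputable section

namespace Fermat.Agent.GC.Local.Abs

open Fermat.Agent.GC.Prof Fermat.Agent.GC.Prof.Elt Fermat.Agent.GC.Places

section Sub

variable {K Ω : Type} [Field K] [Field Ω] [Algebra K Ω] [IsGalois K Ω]
  (E₀ : IntermediateField K Ω) [FiniteDimensional K E₀]

/-- `E₀.fixingSubgroup` is open. -/
lemma isOpenSub_fixingSubgroup : IsOpenSub (galLevels K Ω) E₀.fixingSubgroup :=
  IsOpenSub.of_mem (fixingSubgroup_mem_galLevels E₀)

instance isDiscrete_res_fixingSubgroup :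
    IsDiscrete ((galLevels K Ω).comap E₀.fixingSubgroup.subtype)
      (Rep.res E₀.fixingSubgroup.subtype (unitsRep K Ω)) :=
  IsDiscrete.res (isContHom_comap _ _) _

instance isDiscrete_coind_fixingSubgroup :
    IsDiscrete (galLevels K Ω)
      (Rep.coind E₀.fixingSubgroup.subtype (Rep.res E₀.fixingSubgroup.subtype (unitsRep K Ω))) :=
  isDiscrete_coind (isOpenSub_fixingSubgroup E₀) _

lemma isContHom_fse : IsContHom ((galLevels K Ω).comap E₀.fixingSubgroup.subtype)
    (galLevels E₀ Ω) (IntermediateField.fixingSubgroupEquiv E₀).toMonoidHom :=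
  isContHom_fixingSubgroupEquiv E₀

lemma isContHom_fse_symm : IsContHom (galLevels E₀ Ω)
    ((galLevels K Ω).comap E₀.fixingSubgroup.subtype)
    (IntermediateField.fixingSubgroupEquiv E₀).symm.toMonoidHom :=
  isContHom_fixingSubgroupEquiv_symm E₀

/-- The bridge `Hⁿ(G_{E₀}, Ωˣ)` (`AlgEquiv` form) `→ Hⁿ(E₀.fixingSubgroup, Ωˣ)` (subgroup form). -/
def toSubForm (n : ℕ) : Hlc (galLevels E₀ Ω) (unitsRep E₀ Ω) n ⟶
    Hlc ((galLevels K Ω).comap E₀.fixingSubgroup.subtype)
      (Rep.res E₀.fixingSubgroup.subtype (unitsRep K Ω)) n :=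
  HlcPull (isContHom_fse E₀) (A := unitsRep E₀ Ω)
    (B := Rep.res E₀.fixingSubgroup.subtype (unitsRep K Ω))
    (𝟙 (Rep.res E₀.fixingSubgroup.subtype (unitsRep K Ω))) n

lemma toSubForm_bijective (n : ℕ) : Function.Bijective (toSubForm E₀ n) := by
  have : IsDiscrete ((galLevels K Ω).comap E₀.fixingSubgroup.subtype)
      (Rep.res (IntermediateField.fixingSubgroupEquiv E₀).toMonoidHom (unitsRep E₀ Ω)) :=
    isDiscrete_res_fixingSubgroup E₀
  exact HlcRes_bijective_of_mulEquiv (IntermediateField.fixingSubgroupEquiv E₀) (unitsRep E₀ Ω)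
    (isContHom_fse E₀) (isContHom_fse_symm E₀) n

/-- Restriction to the open subgroup `E₀.fixingSubgroup` is restriction to `Gal(Ω/E₀)`. -/
lemma HlcResS_eq (n : ℕ) :
    HlcResS (S := E₀.fixingSubgroup) (unitsRep K Ω) n = HlcResE K E₀ Ω n ≫ toSubForm E₀ n := by
  have h := HlcPull_comp (isContHom_resScal K E₀ Ω) (isContHom_fse E₀)
    (A := unitsRep K Ω) (B := unitsRep E₀ Ω)
    (C := Rep.res E₀.fixingSubgroup.subtype (unitsRep K Ω))
    (𝟙 (unitsRep E₀ Ω)) (𝟙 (Rep.res E₀.fixingSubgroup.subtype (unitsRep K Ω))) n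
  refine Eq.trans ?_ h
  exact HlcPull_congr _ _ rfl rfl n


/-- `cor ∘ res = index` in `AlgEquiv` form: a class of `Hⁿ(G_K, Ωˣ)` which dies over `E₀` is
killed by `[E₀:K]`. -/
theorem finrank_nsmul_eq_zero_of_HlcResE_eq_zero (n : ℕ)
    (x : Hlc (galLevels K Ω) (unitsRep K Ω) n) (hx : HlcResE K E₀ Ω n x = 0) :
    Module.finrank K E₀ • x = 0 := by
  rw [IntermediateField.finrank_eq_fixingSubgroup_index]
  have : E₀.fixingSubgroup.FiniteIndex := (isOpenSub_fixingSubgroup E₀).finiteIndex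
  apply index_nsmul_eq_zero_of_HlcResS_eq_zero (unitsRep K Ω) (isOpenSub_fixingSubgroup E₀) n x
  rw [HlcResS_eq]
  show toSubForm E₀ n (HlcResE K E₀ Ω n x) = 0
  rw [hx, map_zero]

variable (hK : ClassFormationAbove E₀) (hE : RelClassFormation E₀)

include hK hE

/-- **Restriction `Br(K) → Br(E₀)` is surjective.** -/
theorem HlcResE_two_surjective' (y : Hlc (galLevels E₀ Ω) (unitsRep E₀ Ω) 2) :
    ∃ x : Hlc (galLevels K Ω) (unitsRep K Ω) 2, HlcResE K E₀ Ω 2 x = y :=
  HlcResE_two_surjective E₀ hK hE (finrank_nsmul_eq_zero_of_HlcResE_eq_zero E₀ 2) y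

/-- **The kernel of `Br(K) → Br(E₀)` is the `[E₀:K]`-torsion.** -/
theorem HlcResE_two_eq_zero_iff (x : Hlc (galLevels K Ω) (unitsRep K Ω) 2) :
    HlcResE K E₀ Ω 2 x = 0 ↔ Module.finrank K E₀ • x = 0 :=
  ⟨finrank_nsmul_eq_zero_of_HlcResE_eq_zero E₀ 2 x,
    HlcResE_eq_zero_of_nsmul E₀ hK hE (finrank_nsmul_eq_zero_of_HlcResE_eq_zero E₀ 2) x⟩

/-- **(COR-INJ)** Corestriction `H²(E₀.fixingSubgroup, Ωˣ) → H²(G_K, Ωˣ)` is injective
(`inv_K ∘ cor = inv_{E₀}` without invariants). -/
theorem HlcCor_two_injective [E₀.fixingSubgroup.FiniteIndex] :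
    Function.Injective
      (HlcCor (S := E₀.fixingSubgroup) (unitsRep K Ω) (isOpenSub_fixingSubgroup E₀) 2).hom := by
  rw [injective_iff_map_eq_zero]
  intro y hy
  obtain ⟨y', rfl⟩ := (toSubForm_bijective E₀ 2).2 y
  obtain ⟨x, rfl⟩ := HlcResE_two_surjective' E₀ hK hE y'
  have h1 : toSubForm E₀ 2 (HlcResE K E₀ Ω 2 x) =
      HlcResS (S := E₀.fixingSubgroup) (unitsRep K Ω) 2 x := by
    rw [HlcResS_eq]
    rfl
  rw [h1] at hy ⊢
  have h2 : (HlcCor (S := E₀.fixingSubgroup) (unitsRep K Ω) (isOpenSub_fixingSubgroup E₀) 2)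
      (HlcResS (S := E₀.fixingSubgroup) (unitsRep K Ω) 2 x) = E₀.fixingSubgroup.index • x :=
    HlcCor_HlcResS_apply (unitsRep K Ω) (isOpenSub_fixingSubgroup E₀) 2 x
  have h3 : E₀.fixingSubgroup.index • x = 0 := h2.symm.trans hy
  rw [← IntermediateField.finrank_eq_fixingSubgroup_index] at h3
  have h4 := (HlcResE_two_eq_zero_iff E₀ hK hE x).2 h3
  rw [← h1, h4, map_zero]

end Sub


section Padic

open scoped Padic

variable (q : ℕ) [Fact q.Prime] {K Ω : Type} [Field K] [Field Ω] [Algebra ℚ_[q] K]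
  [Algebra ℚ_[q] Ω] [Algebra K Ω] [IsScalarTower ℚ_[q] K Ω] [FiniteDimensional ℚ_[q] K]
  [IsGalois K Ω]

include q

omit [IsGalois K Ω] in
/-- The class-formation axiom holds above every layer of a `q`-adic field. -/
theorem padic_classFormationAbove (N₀ : IntermediateField K Ω) : ClassFormationAbove N₀ := by
  intro N hfd hgal _
  have : FiniteDimensional ℚ_[q] N := Module.Finite.trans K N
  exact ⟨Unram.local_isAddCyclic_H2 q K N, Unram.local_card_H2_eq_finrank q K N⟩

omit [IsGalois K Ω] in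
/-- The relative class-formation cardinalities hold for `q`-adic fields. -/
theorem padic_relClassFormation (E₀ : IntermediateField K Ω) [FiniteDimensional K E₀] :
    RelClassFormation E₀ := by
  intro N hfd hgal hle
  let _ : Algebra E₀ N := (IntermediateField.inclusion hle).toRingHom.toAlgebra
  have : IsScalarTower K E₀ N := IsScalarTower.of_algebraMap_eq fun _ => rfl
  have : IsScalarTower ℚ_[q] E₀ N := IsScalarTower.of_algebraMap_eq fun _ => rfl
  have : FiniteDimensional ℚ_[q] N := Module.Finite.trans K N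
  have : FiniteDimensional E₀ N := Module.Finite.of_restrictScalars_finite K E₀ N
  have : IsGalois E₀ N := IsGalois.tower_top_of_isGalois K E₀ N
  exact Unram.local_card_H2_eq_finrank q E₀ N

variable (E₀ : IntermediateField K Ω) [FiniteDimensional K E₀]

/-- **(COR-INJ), `q`-adic, unconditional.** -/
theorem padic_HlcCor_two_injective [E₀.fixingSubgroup.FiniteIndex] :
    Function.Injective
      (HlcCor (S := E₀.fixingSubgroup) (unitsRep K Ω) (isOpenSub_fixingSubgroup E₀) 2).hom :=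
  HlcCor_two_injective E₀ (padic_classFormationAbove q E₀) (padic_relClassFormation q E₀)

/-- `q`-adic: `Br(K) → Br(E₀)` is surjective. -/
theorem padic_HlcResE_two_surjective (y : Hlc (galLevels E₀ Ω) (unitsRep E₀ Ω) 2) :
    ∃ x : Hlc (galLevels K Ω) (unitsRep K Ω) 2, HlcResE K E₀ Ω 2 x = y :=
  HlcResE_two_surjective' E₀ (padic_classFormationAbove q E₀) (padic_relClassFormation q E₀) y

/-- `q`-adic: the kernel of `Br(K) → Br(E₀)` is the `[E₀:K]`-torsion. -/
theorem padic_HlcResE_two_eq_zero_iff (x : Hlc (galLevels K Ω) (unitsRep K Ω) 2) :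
    HlcResE K E₀ Ω 2 x = 0 ↔ Module.finrank K E₀ • x = 0 :=
  HlcResE_two_eq_zero_iff E₀ (padic_classFormationAbove q E₀) (padic_relClassFormation q E₀) x

end Padic

end Fermat.Agent.GC.Local.Abs
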